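import Mathlib
import Fermat.Prelude.Def_HeckeGalois_EichlerShimura
import Fermat.Prelude.Def_FLTPrelim_Ramification
import Fermat.Agent.MU.S37.Bounded
import Fermat.Agent.Lib.GaussInt.Bundle
import Fermat.Agent.MU.Lib.RR.OfModularBar
import Fermat.Agent.Lib.FrobTrace.Residue
import Fermat.Agent.MU.S37.Maps
import Fermat.Agent.MU.Lib.GaussInt.FrobPowFinal
import Fermat.Agent.MU.Lib.HeckeInputs.Qbar
import Fermat.Agent.Lib.FrobDensity.Bridge
import Fermat.Agent.Lib.GaussInt.Interface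
import Fermat.Agent.S14.Interface
import Fermat.Agent.MU.Lib.Minkowski.Final
import Fermat.Agent.Lib.KFin.Inertia
import Fermat.Agent.MU.S17.W.OpenStab
import Fermat.Agent.MU.F3.TorsFin.Final
import Fermat.Agent.MU.Lib.Div.Inst
import Fermat.Agent.MU.Lib.GaussInt.KeyAux

section MergeWrap_S37_Quotient -- from S37/Quotient.lean

set_option autoImplicit false
set_option linter.style.haveILetI false

noncomputable section

namespace Fermat.Agent.S37

open ModularCurve

variable {K L : Type*} [Field K] [Field L] [Algebra K L]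
variable (J : Type) [AddCommGroup J] [Module HeckeAlg J]
  [DistribMulAction (L ≃ₐ[K] L) J] [SMulCommClass (L ≃ₐ[K] L) HeckeAlg J]

/-- The generators of the relation subgroup: `(τ - 1) x` for `τ` in the inertia group, and
`(σ₀² - T_ℓ σ₀ + ℓ) x`. -/
def relGen (A : ValuationSubring L) (ℓ : ℕ) (hℓ : ℓ.Prime) (σ₀ : L ≃ₐ[K] L) : Set J :=
  {y | ∃ τ ∈ A.inertiaSubgroupIn K, ∃ x : J, y = τ • x - x} ∪
    {y | ∃ x : J, y = σ₀ • σ₀ • x - heckeGen ⟨ℓ, hℓ⟩ • (σ₀ • x) + ℓ • x}

/-- The relation subgroup (as an additive subgroup). -/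
def relAddSub (A : ValuationSubring L) (ℓ : ℕ) (hℓ : ℓ.Prime) (σ₀ : L ≃ₐ[K] L) : AddSubgroup J :=
  AddSubgroup.closure (relGen J A ℓ hℓ σ₀)

variable {J}

theorem hecke_smul_mem_relGen (A : ValuationSubring L) (ℓ : ℕ) (hℓ : ℓ.Prime) (σ₀ : L ≃ₐ[K] L)
    (t : HeckeAlg) {y : J} (hy : y ∈ relGen J A ℓ hℓ σ₀) : t • y ∈ relGen J A ℓ hℓ σ₀ := by
  rcases hy with ⟨τ, hτ, x, rfl⟩ | ⟨x, rfl⟩
  · left
    refine ⟨τ, hτ, t • x, ?_⟩
    rw [smul_sub, smul_comm τ t x]
  · right
    refine ⟨t • x, ?_⟩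
    rw [smul_add, smul_sub, smul_comm σ₀ t x, smul_comm σ₀ t (σ₀ • x),
      smul_comm t (heckeGen ⟨ℓ, hℓ⟩) (σ₀ • x), smul_comm t ℓ x]

theorem hecke_smul_mem_relAddSub (A : ValuationSubring L) (ℓ : ℕ) (hℓ : ℓ.Prime)
    (σ₀ : L ≃ₐ[K] L) (t : HeckeAlg) {y : J} (hy : y ∈ relAddSub J A ℓ hℓ σ₀) :
    t • y ∈ relAddSub J A ℓ hℓ σ₀ := by
  unfold relAddSub at hy ⊢
  induction hy using AddSubgroup.closure_induction with
  | mem y hy => exact AddSubgroup.subset_closure (hecke_smul_mem_relGen A ℓ hℓ σ₀ t hy)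
  | zero => rw [smul_zero]; exact AddSubgroup.zero_mem _
  | add y z _ _ hy hz => rw [smul_add]; exact AddSubgroup.add_mem _ hy hz
  | neg y _ hy => rw [smul_neg]; exact AddSubgroup.neg_mem _ hy

variable (J) in
/-- The relation subgroup as a Hecke submodule. -/
def relSub (A : ValuationSubring L) (ℓ : ℕ) (hℓ : ℓ.Prime) (σ₀ : L ≃ₐ[K] L) :
    Submodule HeckeAlg J where
  carrier := relAddSub J A ℓ hℓ σ₀
  zero_mem' := AddSubgroup.zero_mem _
  add_mem' := fun ha hb => AddSubgroup.add_mem _ ha hb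
  smul_mem' := fun t _ hy => hecke_smul_mem_relAddSub A ℓ hℓ σ₀ t hy

theorem mem_relSub_iff (A : ValuationSubring L) (ℓ : ℕ) (hℓ : ℓ.Prime) (σ₀ : L ≃ₐ[K] L)
    (y : J) : y ∈ relSub J A ℓ hℓ σ₀ ↔ y ∈ relAddSub J A ℓ hℓ σ₀ := Iff.rfl

/-- conjugation by an element of the decomposition group preserves the inertia group. -/
theorem conj_mem_inertiaSubgroupIn (A : ValuationSubring L) {σ τ : L ≃ₐ[K] L}
    (hσ : σ ∈ A.decompositionSubgroup K) (hτ : τ ∈ A.inertiaSubgroupIn K) :
    σ * τ * σ⁻¹ ∈ A.inertiaSubgroupIn K := by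
  obtain ⟨τ', hτ', rfl⟩ := hτ
  refine ⟨⟨σ, hσ⟩ * τ' * ⟨σ, hσ⟩⁻¹, ?_, rfl⟩
  have hn : (A.inertiaSubgroup K).Normal := by
    unfold ValuationSubring.inertiaSubgroup
    infer_instance
  exact hn.conj_mem τ' hτ' ⟨σ, hσ⟩

/-- two Frobenius elements at `A` differ by an element of the inertia group. -/
theorem inv_mul_mem_inertiaSubgroupIn (A : ValuationSubring L) {ℓ : ℕ} {σ σ' : L ≃ₐ[K] L}
    (hσ : A.IsFrobeniusAt σ ℓ) (hσ' : A.IsFrobeniusAt σ' ℓ) :
    σ⁻¹ * σ' ∈ A.inertiaSubgroupIn K := by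
  obtain ⟨h1, h2⟩ := hσ
  obtain ⟨h1', h2'⟩ := hσ'
  refine ⟨⟨σ, h1⟩⁻¹ * ⟨σ', h1'⟩, ?_, rfl⟩
  unfold ValuationSubring.inertiaSubgroup
  refine MonoidHom.mem_ker.mpr ?_
  ext x
  show ((⟨σ, h1⟩ : A.decompositionSubgroup K)⁻¹ * ⟨σ', h1'⟩) • x = x
  rw [mul_smul, h2' x, ← h2 x, inv_smul_smul]

theorem galois_smul_mem_relAddSub (A : ValuationSubring L) (ℓ : ℕ) (hℓ : ℓ.Prime)
    {σ₀ : L ≃ₐ[K] L} (hσ₀ : σ₀ ∈ A.decompositionSubgroup K) {y : J}
    (hy : y ∈ relAddSub J A ℓ hℓ σ₀) : σ₀ • y ∈ relAddSub J A ℓ hℓ σ₀ := by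
  unfold relAddSub at hy ⊢
  induction hy using AddSubgroup.closure_induction with
  | mem y hy =>
    apply AddSubgroup.subset_closure
    rcases hy with ⟨τ, hτ, x, rfl⟩ | ⟨x, rfl⟩
    · left
      refine ⟨σ₀ * τ * σ₀⁻¹, conj_mem_inertiaSubgroupIn A hσ₀ hτ, σ₀ • x, ?_⟩
      rw [smul_sub, mul_smul, mul_smul, inv_smul_smul]
    · right
      refine ⟨σ₀ • x, ?_⟩
      rw [smul_add, smul_sub, smul_comm σ₀ (heckeGen ⟨ℓ, hℓ⟩) (σ₀ • x), smul_comm σ₀ ℓ x]
  | zero => rw [smul_zero]; exact AddSubgroup.zero_mem _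
  | add y z _ _ hy hz => rw [smul_add]; exact AddSubgroup.add_mem _ hy hz
  | neg y _ hy => rw [smul_neg]; exact AddSubgroup.neg_mem _ hy

/-- the Galois action of `σ` as a Hecke-linear map. -/
def galHeckeLin (σ : L ≃ₐ[K] L) : J →ₗ[HeckeAlg] J where
  toFun x := σ • x
  map_add' := smul_add σ
  map_smul' t x := smul_comm σ t x

@[simp] theorem galHeckeLin_apply (σ : L ≃ₐ[K] L) (x : J) : galHeckeLin σ x = σ • x := rfl

/-- **S37, algebraic reduction**: if the relation subgroup meets the `p`-power torsion trivially,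
then a specialization exists (`J' = J ⧸ H`). -/
theorem exists_specialization_of_core (p : ℕ) (A : ValuationSubring L) (ℓ : ℕ) (hℓ : ℓ.Prime)
    (σ₀ : L ≃ₐ[K] L) (hσ₀ : A.IsFrobeniusAt σ₀ ℓ)
    (hcore : ∀ x : J, (∃ n : ℕ, p ^ n • x = 0) → x ∈ relAddSub J A ℓ hℓ σ₀ → x = 0) :
    ∃ (J' : Type) (_ : AddCommGroup J') (_ : Module HeckeAlg J') (sp : J →+ J')
      (F : J' →+ J'),
      IsSpecialization (K := K) p J J' A ℓ sp F ∧ SpecialFibreRelation J' ℓ hℓ F := by
  have hdec : σ₀ ∈ A.decompositionSubgroup K := hσ₀.mem_decompositionSubgroup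
  set H : Submodule HeckeAlg J := relSub J A ℓ hℓ σ₀ with hH
  have hstab : H ≤ H.comap (galHeckeLin σ₀) := fun y hy =>
    galois_smul_mem_relAddSub A ℓ hℓ hdec hy
  refine ⟨J ⧸ H, inferInstance, inferInstance, H.mkQ.toAddMonoidHom,
    (H.mapQ H (galHeckeLin σ₀) hstab).toAddMonoidHom, ⟨?_, ?_, ?_, ?_⟩, ?_⟩
  · intro T x
    exact H.mkQ.map_smul T x
  · intro σ hσ x
    show H.mkQ (σ • x) = H.mkQ x
    rw [← sub_eq_zero, ← map_sub, Submodule.mkQ_apply, Submodule.Quotient.mk_eq_zero]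
    exact AddSubgroup.subset_closure (Or.inl ⟨σ, hσ, x, rfl⟩)
  · intro σ hσ x
    show H.mkQ (σ • x) = H.mapQ H (galHeckeLin σ₀) hstab (H.mkQ x)
    rw [Submodule.mkQ_apply, Submodule.mkQ_apply, Submodule.mapQ_apply, galHeckeLin_apply,
      ← sub_eq_zero, ← Submodule.Quotient.mk_sub, Submodule.Quotient.mk_eq_zero]
    have hτ := inv_mul_mem_inertiaSubgroupIn A hσ₀ hσ
    have h1 : σ • x - σ₀ • x = σ₀ • ((σ₀⁻¹ * σ) • x - x) := by
      rw [smul_sub, mul_smul, smul_inv_smul]
    rw [h1]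
    exact galois_smul_mem_relAddSub A ℓ hℓ hdec
      (AddSubgroup.subset_closure (Or.inl ⟨σ₀⁻¹ * σ, hτ, x, rfl⟩))
  · intro x hx hsp
    refine hcore x hx ?_
    have : H.mkQ x = 0 := hsp
    rwa [Submodule.mkQ_apply, Submodule.Quotient.mk_eq_zero] at this
  · intro y
    obtain ⟨x, rfl⟩ := H.mkQ_surjective y
    show H.mapQ H (galHeckeLin σ₀) hstab (H.mapQ H (galHeckeLin σ₀) hstab (H.mkQ x)) -
      heckeGen ⟨ℓ, hℓ⟩ • H.mapQ H (galHeckeLin σ₀) hstab (H.mkQ x) + ℓ • H.mkQ x = 0
    rw [Submodule.mkQ_apply, Submodule.mapQ_apply, Submodule.mapQ_apply, galHeckeLin_apply,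
      galHeckeLin_apply, ← Submodule.Quotient.mk_smul, ← Submodule.Quotient.mk_sub]
    have h2 : (ℓ • Submodule.Quotient.mk x : J ⧸ H) = Submodule.Quotient.mk (ℓ • x) := by
      rw [← Submodule.mkQ_apply, ← Submodule.mkQ_apply, map_nsmul]
    rw [h2, ← Submodule.Quotient.mk_add, Submodule.Quotient.mk_eq_zero]
    exact AddSubgroup.subset_closure (Or.inr ⟨x, rfl⟩)

end Fermat.Agent.S37
end
end MergeWrap_S37_Quotient

section MergeWrap_S37_ModGData -- from S37/ModGData.lean

set_option autoImplicit false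
set_option linter.style.haveILetI false
set_option synthInstance.maxHeartbeats 400000

noncomputable section

namespace Fermat.Agent.S37

open ModularCurve HahnSeries AlgebraicCurve Fermat.Agent.RR Fermat.Agent.GaussInt

local notation "Qb" => AlgebraicClosure ℚ

variable (A : ValuationSubring Qb) (ℓ N : ℕ) [NeZero N]
variable (hℓ : ℓ.Prime) (hA : A.LiesOverPrime ℓ)

/-- The Gauss valuation of `F_N` at a place over `ℓ`, with residue map to `k((q))`. -/
def modGData :
    GData Qb (modularFunctionFieldBar N) (IsLocalRing.ResidueField A)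
      (LaurentSeries (IsLocalRing.ResidueField A)) where
  A := A
  Ov := gaussValSub (gaussHyp_modular N hℓ hA)
  res := IsLocalRing.residue A
  ρ := gaussValRes (gaussHyp_modular N hℓ hA)
  hF := Fermat.Agent.RRMod.isRRField_bar N
  res_surj := IsLocalRing.residue_surjective
  mem_Ov_iff := gaussValSub_mem_iff_const (gaussHyp_modular N hℓ hA)
  ρ_algebraMap := fun c hc _ => gaussResFun_algebraMap hc
  ρ_eq_zero_iff := gaussValRes_eq_zero_iff (gaussHyp_modular N hℓ hA)
  scale := gaussValSub_scale (gaussHyp_modular N hℓ hA)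

theorem mem_modGData_Ov_iff (f : modularFunctionFieldBar N) :
    f ∈ (modGData A ℓ N hℓ hA).Ov ↔
      (f : LaurentSeries Qb) ∈ gaussSub A (modularFunctionFieldBar N) :=
  Iff.rfl

theorem modGData_red_of_mem {f : modularFunctionFieldBar N}
    (hf : (f : LaurentSeries Qb) ∈ gaussSub A (modularFunctionFieldBar N)) :
    (modGData A ℓ N hℓ hA).red f =
      gaussResFun A (modularFunctionFieldBar N) (f : LaurentSeries Qb) := by
  rw [(modGData A ℓ N hℓ hA).red_of_mem ((mem_modGData_Ov_iff A ℓ N hℓ hA f).mpr hf)]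
  rfl

/-- `red f = 1` iff `f` lies in the Gauss ring with residue `1`. -/
theorem modGData_red_eq_one_iff (f : modularFunctionFieldBar N) :
    (modGData A ℓ N hℓ hA).red f = 1 ↔
      (f : LaurentSeries Qb) ∈ gaussSub A (modularFunctionFieldBar N) ∧
        gaussResFun A (modularFunctionFieldBar N) (f : LaurentSeries Qb) = 1 := by
  constructor
  · intro h
    have h0 : (modGData A ℓ N hℓ hA).red f ≠ 0 := by rw [h]; exact one_ne_zero
    have hmem := (modGData A ℓ N hℓ hA).mem_of_red_ne_zero h0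
    refine ⟨hmem, ?_⟩
    rw [← modGData_red_of_mem A ℓ N hℓ hA hmem, h]
  · rintro ⟨hmem, hres⟩
    rw [modGData_red_of_mem A ℓ N hℓ hA hmem, hres]

/-- `red f ≠ 0` iff `f` lies in the Gauss ring with nonzero residue. -/
theorem modGData_red_ne_zero_iff (f : modularFunctionFieldBar N) :
    (modGData A ℓ N hℓ hA).red f ≠ 0 ↔
      (f : LaurentSeries Qb) ∈ gaussSub A (modularFunctionFieldBar N) ∧
        gaussResFun A (modularFunctionFieldBar N) (f : LaurentSeries Qb) ≠ 0 := by
  constructor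
  · intro h0
    have hmem := (modGData A ℓ N hℓ hA).mem_of_red_ne_zero h0
    refine ⟨hmem, ?_⟩
    rw [← modGData_red_of_mem A ℓ N hℓ hA hmem]
    exact h0
  · rintro ⟨hmem, hres⟩
    rw [modGData_red_of_mem A ℓ N hℓ hA hmem]
    exact hres

end Fermat.Agent.S37
end
end MergeWrap_S37_ModGData

section MergeWrap_S37_Assembly -- from S37/Assembly.lean

set_option autoImplicit false
set_option linter.style.haveILetI false
set_option linter.unusedSectionVars false
set_option synthInstance.maxHeartbeats 400000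

noncomputable section

namespace Fermat.Agent.S37

open ModularCurve AlgebraicCurve HahnSeries Fermat.Agent.F3 Fermat.Agent.F3G
  Fermat.Agent.GaussInt Fermat.Agent.Kronecker Fermat.Agent.RR Fermat.Agent.GaussIntFP

local notation "Qb" => AlgebraicClosure ℚ

variable {N : ℕ} [NeZero N]

/-- the semilinear automorphism of `F_N` attached to `σ ∈ G_ℚ`. -/
abbrev gal (N : ℕ) (σ : GQ) : SemilinearAut Qb (FBar N) :=
  arithmeticGalois (modularFunctionFieldFull N) σ

/-! ### the inertia maps -/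

/-- the divisor-level map `τ - 1`. -/
def inertiaMap (N : ℕ) (τ : GQ) : Divisor Qb (FBar N) →+ Divisor Qb (FBar N) :=
  smulHom (gal N τ) - AddMonoidHom.id _

theorem inertiaMap_apply (τ : GQ) (D : Divisor Qb (FBar N)) :
    inertiaMap N τ D = gal N τ • D - D := rfl

theorem isBddMap_inertiaMap (τ : GQ) : IsBddMap (inertiaMap N τ) :=
  ⟨1, smulHom (gal N τ), AddMonoidHom.id _, zero_le_one, isPosBdd_smulHom _, isPosBdd_id,
    fun _ => rfl⟩

section Good

variable (A : ValuationSubring Qb) (ℓ : ℕ) (hℓ : ℓ.Prime) (hA : A.LiesOverPrime ℓ)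

theorem isGoodMap_inertiaMap (τ : GQ) (hτ : τ ∈ A.inertiaSubgroupIn ℚ) :
    IsGoodMap (modGData A ℓ N hℓ hA) (inertiaMap N τ) := by
  refine ⟨isBddMap_inertiaMap τ, fun w hw => ?_⟩
  set S := modGData A ℓ N hℓ hA with hS
  obtain ⟨c, hc, hred⟩ := S.exists_scale hw
  set u : FBar N := c⁻¹ • w with hu
  have hu0 : u ≠ 0 := S.ne_zero_of_red_ne_zero hred
  have hdiv : divOf S.hF u = divOf S.hF w := gd_divOf_smul S.hF (inv_ne_zero hc) hw
  obtain ⟨humem, hures⟩ := (modGData_red_ne_zero_iff A ℓ N hℓ hA u).mp hred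
  have hstab : ∀ y ∈ modularFunctionFieldBar N,
      coeffMap ((τ : Qb ≃ₐ[ℚ] Qb) : Qb →+* Qb) y ∈ modularFunctionFieldBar N := fun y hy =>
    coeffMap_mem_laurentBaseChange τ hy
  have hτcoe : ((gal N τ • u : FBar N) : LaurentSeries Qb) =
      coeffMap ((τ : Qb ≃ₐ[ℚ] Qb) : Qb →+* Qb) (u : LaurentSeries Qb) :=
    coe_arithmeticGalois_smul _ τ u
  have hτmem : ((gal N τ • u : FBar N) : LaurentSeries Qb) ∈
      gaussSub A (modularFunctionFieldBar N) := by
    rw [hτcoe]
    exact coeffMap_mem_gaussSub_of_inertia τ hτ hstab humem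
  have hτres : gaussResFun A (modularFunctionFieldBar N)
      ((gal N τ • u : FBar N) : LaurentSeries Qb) =
      gaussResFun A (modularFunctionFieldBar N) (u : LaurentSeries Qb) := by
    rw [hτcoe]
    exact gaussResFun_inertia τ hτ hstab humem
  have hτu0 : gal N τ • u ≠ 0 := by simpa using hu0
  have h1 : S.red (gal N τ • u) = S.red u := by
    rw [modGData_red_of_mem A ℓ N hℓ hA hτmem, modGData_red_of_mem A ℓ N hℓ hA humem, hτres]
  refine ⟨(gal N τ • u) * u⁻¹, ?_, ?_⟩
  · have hτred : S.red (gal N τ • u) ≠ 0 := by rw [h1]; exact hred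
    rw [S.red_mul (S.mem_of_red_ne_zero hτred) (S.inv_mem_of_red_ne_zero hred),
      S.red_inv (S.mem_of_red_ne_zero hred) (S.inv_mem_of_red_ne_zero hred) hu0, h1]
    exact mul_inv_cancel₀ hred
  · rw [divOf_mul S.hF hτu0 (inv_ne_zero hu0), divOf_inv, divOf_smul_aut, hdiv, inertiaMap_apply]
    abel

end Good

/-! ### the Frobenius map -/

section Frob

variable (ℓ : ℕ) [NeZero ℓ]
  [HasPrincipalDivisors Qb (laurentBaseChange Qb (modularFunctionFieldFull (N * ℓ)))]
  (hα : HeckeAlphaBarIntegral Qb N ℓ) (hβ : HeckeBetaBarIntegral Qb N ℓ)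

/-- the divisor-level map `σ² - T_ℓ σ + ℓ`. -/
def frobMap (σ : GQ) : Divisor Qb (FBar N) →+ Divisor Qb (FBar N) :=
  ((smulHom (gal N σ)).comp (smulHom (gal N σ)) + ℓ • AddMonoidHom.id _) -
    (Divisor.correspondence (heckeBetaBar Qb N ℓ) (heckeAlphaBar Qb N ℓ) hβ hα).comp
      (smulHom (gal N σ))

theorem frobMap_apply (σ : GQ) (D : Divisor Qb (FBar N)) :
    frobMap ℓ hα hβ σ D = gal N σ • gal N σ • D + ℓ • D -
      Divisor.correspondence (heckeBetaBar Qb N ℓ) (heckeAlphaBar Qb N ℓ) hβ hα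
        (gal N σ • D) := rfl

theorem isBddMap_frobMap (hFI : FundamentalIdentityAlong Qb (heckeBetaBar Qb N ℓ) hβ) (σ : GQ) :
    IsBddMap (frobMap ℓ hα hβ σ) := by
  have hF : IsRRField Qb (FBar N) := Fermat.Agent.RRMod.isRRField_bar N
  set r : ℤ := (finrankAlong Qb (heckeBetaBar Qb N ℓ) : ℤ) with hr
  have hr0 : 0 ≤ r := Int.natCast_nonneg _
  have h1 : IsPosBdd ((1 : ℤ) * 1 + (ℓ : ℤ))
      ((smulHom (gal N σ)).comp (smulHom (gal N σ)) + ℓ • AddMonoidHom.id _) :=
    ((isPosBdd_smulHom (gal N σ)).comp zero_le_one (isPosBdd_smulHom (gal N σ))).add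
      (isPosBdd_nsmul_id ℓ)
  have h2 : IsPosBdd (r * 1)
      ((Divisor.correspondence (heckeBetaBar Qb N ℓ) (heckeAlphaBar Qb N ℓ) hβ hα).comp
        (smulHom (gal N σ))) :=
    (isPosBdd_correspondence _ _ hβ hα hFI).comp hr0 (isPosBdd_smulHom (gal N σ))
  refine ⟨1 + ℓ + r, _, _, by positivity, h1.mono hF ?_, h2.mono hF ?_, fun _ => rfl⟩
  · have : (0 : ℤ) ≤ r := hr0
    omega
  · have : (0 : ℤ) ≤ (ℓ : ℤ) := Int.natCast_nonneg _
    omega

variable (A : ValuationSubring Qb) (hℓ : ℓ.Prime) (hA : A.LiesOverPrime ℓ)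

theorem isGoodMap_frobMap (hℓN : ¬ ℓ ∣ N)
    (hFI : FundamentalIdentityAlong Qb (heckeBetaBar Qb N ℓ) hβ)
    (hfin : FiniteAlong Qb (heckeAlphaBar Qb N ℓ))
    (hN : NormFormulaAlong Qb (heckeAlphaBar Qb N ℓ) hfin)
    {σ : GQ} (hσ : A.IsFrobeniusAt σ ℓ) :
    IsGoodMap (modGData A ℓ N hℓ hA) (frobMap ℓ hα hβ σ) := by
  refine ⟨isBddMap_frobMap ℓ hα hβ hFI σ, fun w hw => ?_⟩
  haveI : Fact ℓ.Prime := ⟨hℓ⟩
  haveI : CharP (IsLocalRing.ResidueField A) ℓ := charP_residue_of_liesOver A hℓ hA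
  set S := modGData A ℓ N hℓ hA with hS
  have hσw : gal N σ • w ≠ 0 := by simpa using hw
  obtain ⟨c, hc, hred⟩ := S.exists_scale hσw
  set y : FBar N := c⁻¹ • (gal N σ • w) with hy
  have hy0 : y ≠ 0 := S.ne_zero_of_red_ne_zero hred
  have hdivy : divOf S.hF y = gal N σ • divOf S.hF w := by
    rw [hy, gd_divOf_smul S.hF (inv_ne_zero hc) hσw, divOf_smul_aut]
  have hdivw : divOf S.hF w = (gal N σ)⁻¹ • divOf S.hF y := by
    rw [hdivy, inv_smul_smul]
  obtain ⟨hymem, hyres⟩ := (modGData_red_ne_zero_iff A ℓ N hℓ hA y).mp hred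
  have hP := normProductFormula N ℓ hℓ hℓN
  obtain ⟨hzmem, hzres⟩ := frobRatio_mem_gaussSub A ℓ hP hσ y hymem hyres
  set z : FBar N := heckeFun Qb N ℓ y * (frobDen N ℓ σ y)⁻¹ with hz
  have hzred : S.red z = 1 := (modGData_red_eq_one_iff A ℓ N hℓ hA z).mpr ⟨hzmem, hzres⟩
  have hT0 : heckeFun Qb N ℓ y ≠ 0 := by
    rw [heckeFun_apply]
    exact normAlong_ne_zero _ hfin (by simpa using hy0)
  have hD0 : frobDen N ℓ σ y ≠ 0 := frobDen_ne_zero ℓ σ hy0
  refine ⟨z⁻¹, S.red_inv_of_red_eq_one hzred, ?_⟩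
  -- the divisor of `z`
  have hσy0 : gal N σ • y ≠ 0 := by simpa using hy0
  have hσiy0 : gal N σ⁻¹ • y ≠ 0 := by simpa using hy0
  have hden : divOf S.hF (frobDen N ℓ σ y) =
      gal N σ • divOf S.hF y + ℓ • ((gal N σ)⁻¹ • divOf S.hF y) := by
    have hinv : gal N σ⁻¹ = (gal N σ)⁻¹ := map_inv _ σ
    show divOf S.hF (gal N σ • y * (gal N σ⁻¹ • y) ^ ℓ) = _
    rw [divOf_mul S.hF hσy0 (pow_ne_zero ℓ hσiy0), gd_divOf_pow, divOf_smul_aut, divOf_smul_aut,
      hinv]
  have hnum : divOf S.hF (heckeFun Qb N ℓ y) =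
      Divisor.correspondence (heckeBetaBar Qb N ℓ) (heckeAlphaBar Qb N ℓ) hβ hα
        (divOf S.hF y) := by
    rw [correspondence_divOf _ _ hβ hα S.hF hfin hN hy0]
    rfl
  rw [divOf_inv, hz, divOf_mul S.hF hT0 (inv_ne_zero hD0), divOf_inv, hden, hnum, frobMap_apply,
    ← hdivy, ← hdivw]
  abel

end Frob

end Fermat.Agent.S37
end
end MergeWrap_S37_Assembly

section MergeWrap_S37_Final -- from S37/Final.lean

set_option autoImplicit false
set_option linter.style.haveILetI false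
set_option linter.unusedSectionVars false
set_option synthInstance.maxHeartbeats 400000

noncomputable section

namespace Fermat.Agent.S37

open ModularCurve AlgebraicCurve HahnSeries Fermat.Agent.F3 Fermat.Agent.F3G
  Fermat.Agent.GaussInt Fermat.Agent.Kronecker Fermat.Agent.RR Fermat.Agent.GaussIntFP

local notation "Qb" => AlgebraicClosure ℚ

variable {N : ℕ} [NeZero N]

section Rep

variable (ℓ : ℕ) [NeZero ℓ]
  [HasPrincipalDivisors Qb (laurentBaseChange Qb (modularFunctionFieldFull (N * ℓ)))]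
  (hα : HeckeAlphaBarIntegral Qb N ℓ) (hβ : HeckeBetaBarIntegral Qb N ℓ)
  (A : ValuationSubring Qb)

/-- the set of divisor-level maps: `τ - 1` (`τ` in inertia) and `σ₀² - T_ℓ σ₀ + ℓ`. -/
def mapSet (σ₀ : GQ) : Set (Divisor Qb (FBar N) →+ Divisor Qb (FBar N)) :=
  {Λ | ∃ τ ∈ A.inertiaSubgroupIn ℚ, Λ = inertiaMap N τ} ∪ {frobMap ℓ hα hβ σ₀}

theorem isGoodMap_of_mem_mapSet (hℓ : ℓ.Prime) (hA : A.LiesOverPrime ℓ) (hℓN : ¬ ℓ ∣ N)
    (hFI : FundamentalIdentityAlong Qb (heckeBetaBar Qb N ℓ) hβ)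
    (hfin : FiniteAlong Qb (heckeAlphaBar Qb N ℓ))
    (hN : NormFormulaAlong Qb (heckeAlphaBar Qb N ℓ) hfin)
    {σ₀ : GQ} (hσ₀ : A.IsFrobeniusAt σ₀ ℓ)
    (Λ : Divisor Qb (FBar N) →+ Divisor Qb (FBar N)) (hΛ : Λ ∈ mapSet ℓ hα hβ A σ₀) :
    IsGoodMap (modGData A ℓ N hℓ hA) Λ := by
  rcases hΛ with ⟨τ, hτ, rfl⟩ | hΛ
  · exact isGoodMap_inertiaMap A ℓ hℓ hA τ hτ
  · rw [Set.mem_singleton_iff] at hΛ
    rw [hΛ]
    exact isGoodMap_frobMap ℓ hα hβ A hℓ hA hℓN hFI hfin hN hσ₀

theorem degree_inertiaMap (τ : GQ) (Y : Divisor Qb (FBar N)) (hY : Divisor.degree Y = 0) :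
    Divisor.degree (inertiaMap N τ Y) = 0 := by
  rw [inertiaMap_apply, map_sub, SemilinearAut.degree_smul, hY, sub_zero]

theorem degree_frobMap (hFI : FundamentalIdentityAlong Qb (heckeBetaBar Qb N ℓ) hβ) (σ : GQ)
    (Y : Divisor Qb (FBar N)) (hY : Divisor.degree Y = 0) :
    Divisor.degree (frobMap ℓ hα hβ σ Y) = 0 := by
  rw [frobMap_apply, map_sub, map_add, SemilinearAut.degree_smul, SemilinearAut.degree_smul,
    map_nsmul, Divisor.degree_correspondence _ _ hβ hα hFI, SemilinearAut.degree_smul, hY]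
  simp

end Rep

/-- The class of a divisor of degree `0`. -/
def cls (D : Divisor Qb (FBar N)) (hD : Divisor.degree D = 0) : JZero N :=
  Pic0.mk ⟨D, hD⟩

theorem cls_add (D D' : Divisor Qb (FBar N)) (hD : Divisor.degree D = 0)
    (hD' : Divisor.degree D' = 0) (h : Divisor.degree (D + D') = 0) :
    cls (D + D') h = cls D hD + cls D' hD' := rfl

theorem cls_neg (D : Divisor Qb (FBar N)) (hD : Divisor.degree D = 0)
    (h : Divisor.degree (-D) = 0) : cls (-D) h = -cls D hD := rfl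

theorem cls_sub (D D' : Divisor Qb (FBar N)) (hD : Divisor.degree D = 0)
    (hD' : Divisor.degree D' = 0) (h : Divisor.degree (D - D') = 0) :
    cls (D - D') h = cls D hD - cls D' hD' := rfl

theorem cls_nsmul (n : ℕ) (D : Divisor Qb (FBar N)) (hD : Divisor.degree D = 0)
    (h : Divisor.degree (n • D) = 0) : cls (n • D) h = n • cls D hD :=
  map_nsmul (QuotientAddGroup.mk' _) n (⟨D, hD⟩ : Divisor.degZero (K := Qb) (F := FBar N))

theorem cls_smul (σ : GQ) (D : Divisor Qb (FBar N)) (hD : Divisor.degree D = 0)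
    (h : Divisor.degree (gal N σ • D) = 0) : cls (gal N σ • D) h = σ • cls D hD := rfl

theorem cls_eq_zero_of_eq_divOf (D : Divisor Qb (FBar N)) (hD : Divisor.degree D = 0)
    {f : FBar N} (hf : f ≠ 0) (h : D = divOf (Fermat.Agent.RRMod.isRRField_bar N) f) :
    cls D hD = 0 := by
  refine (QuotientAddGroup.eq_zero_iff _).mpr ?_
  refine ⟨f, hf, fun v => ?_⟩
  show D v = v.ord f
  rw [h, divOf_apply]

theorem exists_divOf_of_cls_eq_zero (D : Divisor Qb (FBar N)) (hD : Divisor.degree D = 0)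
    (h : cls D hD = 0) :
    ∃ f : FBar N, f ≠ 0 ∧ D = divOf (Fermat.Agent.RRMod.isRRField_bar N) f := by
  have h2 := (QuotientAddGroup.eq_zero_iff _).mp h
  obtain ⟨f, hf, hDf⟩ := h2
  refine ⟨f, hf, Finsupp.ext fun v => ?_⟩
  rw [divOf_apply]
  exact hDf v

section Main

variable (ℓ : ℕ) [NeZero ℓ]
  [HasPrincipalDivisors Qb (laurentBaseChange Qb (modularFunctionFieldFull (N * ℓ)))]
  (hα : HeckeAlphaBarIntegral Qb N ℓ) (hβ : HeckeBetaBarIntegral Qb N ℓ)
  (A : ValuationSubring Qb)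

/-- every element of the relation subgroup of `J₀(N)` is the class of a divisor in the subgroup
generated by the `Λ Y`. -/
theorem exists_rep (hcomm : HeckeOperatorsCommuteBar N) (hℓ : ℓ.Prime)
    (hFI : FundamentalIdentityAlong Qb (heckeBetaBar Qb N ℓ) hβ)
    (hfin : FiniteAlong Qb (heckeAlphaBar Qb N ℓ))
    (hN : NormFormulaAlong Qb (heckeAlphaBar Qb N ℓ) hfin) (σ₀ : GQ) {x : JZero N}
    (hx : x ∈ @relAddSub ℚ Qb _ _ _ (JZero N) _ (heckeModuleBar N) _ A ℓ hℓ σ₀) :
    ∃ (D : Divisor Qb (FBar N)) (hD : Divisor.degree D = 0),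
      D ∈ AddSubgroup.closure (genDiv (mapSet ℓ hα hβ A σ₀)) ∧ cls D hD = x := by
  letI := heckeModuleBar N
  unfold relAddSub at hx
  induction hx using AddSubgroup.closure_induction with
  | mem y hy =>
    rcases hy with ⟨τ, hτ, x, rfl⟩ | ⟨x, rfl⟩
    · obtain ⟨⟨Y, hY⟩, rfl⟩ := Pic0.mk_surjective x
      have hY0 : Divisor.degree Y = 0 := hY
      refine ⟨inertiaMap N τ Y, degree_inertiaMap τ Y hY0,
        AddSubgroup.subset_closure ⟨_, Or.inl ⟨τ, hτ, rfl⟩, Y, hY0, rfl⟩, ?_⟩
      rfl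
    · obtain ⟨⟨Y, hY⟩, rfl⟩ := Pic0.mk_surjective x
      have hY0 : Divisor.degree Y = 0 := hY
      refine ⟨frobMap ℓ hα hβ σ₀ Y, degree_frobMap ℓ hα hβ hFI σ₀ Y hY0,
        AddSubgroup.subset_closure ⟨_, Or.inr rfl, Y, hY0, rfl⟩, ?_⟩
      have hT : heckeGen ⟨ℓ, hℓ⟩ • (σ₀ • Pic0.mk (⟨Y, hY⟩ : Divisor.degZero)) =
          cls (Divisor.correspondence (heckeBetaBar Qb N ℓ) (heckeAlphaBar Qb N ℓ) hβ hα
            (gal N σ₀ • Y))
            (by rw [Divisor.degree_correspondence _ _ hβ hα hFI, SemilinearAut.degree_smul, hY0,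
              mul_zero]) := by
        rw [heckeModuleBar_heckeGen_smul hcomm, heckeOperatorBar_apply,
          heckeOperatorAlong_eq hα hβ hFI hfin hN]
        rfl
      rw [hT]
      have hdσ : Divisor.degree (gal N σ₀ • Y) = 0 := by rw [SemilinearAut.degree_smul, hY0]
      have hdσσ : Divisor.degree (gal N σ₀ • gal N σ₀ • Y) = 0 := by
        rw [SemilinearAut.degree_smul, hdσ]
      have hdℓ : Divisor.degree (ℓ • Y) = 0 := by rw [map_nsmul, hY0, smul_zero]
      have hdc : Divisor.degree (Divisor.correspondence (heckeBetaBar Qb N ℓ)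
          (heckeAlphaBar Qb N ℓ) hβ hα (gal N σ₀ • Y)) = 0 := by
        rw [Divisor.degree_correspondence _ _ hβ hα hFI, hdσ, mul_zero]
      have e1 : σ₀ • σ₀ • Pic0.mk (⟨Y, hY⟩ : Divisor.degZero) =
          cls (gal N σ₀ • gal N σ₀ • Y) hdσσ := rfl
      have e2 : ℓ • Pic0.mk (⟨Y, hY⟩ : Divisor.degZero) = cls (ℓ • Y) hdℓ :=
        (cls_nsmul ℓ Y hY0 hdℓ).symm
      rw [e1, e2]
      have e3 : cls (frobMap ℓ hα hβ σ₀ Y) (degree_frobMap ℓ hα hβ hFI σ₀ Y hY0) =
          cls (gal N σ₀ • gal N σ₀ • Y) hdσσ + cls (ℓ • Y) hdℓ -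
            cls (Divisor.correspondence (heckeBetaBar Qb N ℓ)
              (heckeAlphaBar Qb N ℓ) hβ hα (gal N σ₀ • Y)) hdc := rfl
      rw [e3]
      abel
  | zero => exact ⟨0, map_zero _, AddSubgroup.zero_mem _, rfl⟩
  | add y z _ _ hy hz =>
    obtain ⟨D, hD, hDc, rfl⟩ := hy
    obtain ⟨D', hD', hDc', rfl⟩ := hz
    exact ⟨D + D', by rw [map_add, hD, hD', add_zero], AddSubgroup.add_mem _ hDc hDc', rfl⟩
  | neg y _ hy =>
    obtain ⟨D, hD, hDc, rfl⟩ := hy
    exact ⟨-D, by rw [map_neg, hD, neg_zero], AddSubgroup.neg_mem _ hDc, rfl⟩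

end Main

/-- **S37 from the KEY LEMMA.**  For every level `N`, the function form of "prime-to-`ℓ` torsion
injects under reduction" (`KeyLemmaAt N`) implies the existence of specializations of `J₀(N)` with
the Eichler--Shimura relation (frozen statement S37). -/
theorem specializationExists_of_keyLemmaAt (N p : ℕ) [NeZero N]
    (hcomm : ModularCurve.HeckeOperatorsCommuteBar N) (hKL : KeyLemmaAt N) :
    letI := ModularCurve.heckeModuleBar N
    ∀ (_ : SMulCommClass (AlgebraicClosure ℚ ≃ₐ[ℚ] AlgebraicClosure ℚ) ModularCurve.HeckeAlg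
      (ModularCurve.JZero N)),
      ModularCurve.SpecializationExists (K := ℚ) (L := AlgebraicClosure ℚ) N p
        (ModularCurve.JZero N) := by
  letI := ModularCurve.heckeModuleBar N
  intro hsmul ℓ hℓ hndvd A hA
  haveI : NeZero ℓ := ⟨hℓ.ne_zero⟩
  haveI : IsAlgClosed (IsLocalRing.ResidueField A) :=
    Fermat.Agent.FrobTrace.isAlgClosed_residueField A
  have hℓN : ¬ ℓ ∣ N := fun h => hndvd (Dvd.dvd.mul_right h p)
  have hℓp : ¬ ℓ ∣ p := fun h => hndvd (Dvd.dvd.mul_left h N)
  obtain ⟨σ₀, hσ₀, -, -⟩ := Fermat.Agent.FrobBridge.exists_isFrobeniusAt_of_liesOver A ℓ hℓ hA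
  obtain ⟨hα, hβ, hP, hfin, hFI, hN⟩ := Fermat.Agent.HeckeInputs.hi_heckeInputsAlong_Qbar N ℓ
  haveI := hP
  refine exists_specialization_of_core p A ℓ hℓ σ₀ hσ₀ ?_
  rintro x ⟨n, hn⟩ hx
  obtain ⟨D, hD, hDc, rfl⟩ := exists_rep ℓ hα hβ A hcomm hℓ hFI hfin hN σ₀ hx
  set m : ℕ := p ^ n with hm
  have hm0 : m ≠ 0 := by
    rw [hm]
    apply pow_ne_zero
    rintro rfl
    exact hℓp (dvd_zero ℓ)
  have hℓm : ¬ ℓ ∣ N * m := by
    intro h
    rcases (Nat.Prime.dvd_mul hℓ).mp h with h1 | h1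
    · exact hℓN h1
    · exact hℓp (hℓ.dvd_of_dvd_pow h1)
  -- `m • D` is principal
  have hmdeg : Divisor.degree (m • D) = 0 := by rw [map_nsmul, hD, smul_zero]
  have hmcls : cls (m • D) hmdeg = 0 := by
    rw [cls_nsmul m D hD hmdeg]
    exact hn
  obtain ⟨f, hf, hmD⟩ := exists_divOf_of_cls_eq_zero (m • D) hmdeg hmcls
  -- the KEY LEMMA in the shape of `principal_of_mem_closure`
  set S := modGData A ℓ N hℓ hA with hS
  have hKL' : ∀ w : FBar N, S.red w = 1 → (∀ P : Place Qb (FBar N), (m : ℤ) ∣ P.ord w) →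
      ∃ h : FBar N, h ^ m = w := by
    intro w hw hdvd
    obtain ⟨hwmem, hwres⟩ := (modGData_red_eq_one_iff A ℓ N hℓ hA w).mp hw
    have hw0 : w ≠ 0 := S.ne_zero_of_red_ne_zero (by rw [hw]; exact one_ne_zero)
    exact hKL m ℓ hℓ hℓm A hA w hw0 hdvd hwmem hwres
  obtain ⟨h, hh0, hDh⟩ := principal_of_mem_closure S (mapSet ℓ hα hβ A σ₀)
    (isGoodMap_of_mem_mapSet ℓ hα hβ A hℓ hA hℓN hFI hfin hN hσ₀) m hm0 hKL' hDc hf hmD
  exact cls_eq_zero_of_eq_divOf D hD hh0 hDh

end Fermat.Agent.S37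
end
end MergeWrap_S37_Final

section MergeWrap_S17_W_Unram -- from S17/W/Unram.lean

set_option autoImplicit false
set_option linter.style.haveILetI false
set_option linter.unusedSectionVars false
set_option synthInstance.maxHeartbeats 400000

noncomputable section

namespace Fermat.Agent.S17

open ModularCurve AlgebraicCurve HahnSeries Fermat.Agent.F3 Fermat.Agent.F3G
  Fermat.Agent.GaussInt Fermat.Agent.RR Fermat.Agent.S37

local notation "Qb" => AlgebraicClosure ℚ

variable {N : ℕ} [NeZero N]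

/-- the set of divisor-level maps `τ - 1`, `τ` in the inertia group of `A`. -/
def inertiaMapSet (N : ℕ) [NeZero N] (A : ValuationSubring Qb) :
    Set (Divisor Qb (FBar N) →+ Divisor Qb (FBar N)) :=
  {Λ | ∃ τ ∈ A.inertiaSubgroupIn ℚ, Λ = inertiaMap N τ}

/-- **(UNR)**: the inertia group at a place over `ℓ ∤ N m` acts trivially on the `m`-division
points of the classes it fixes. -/
theorem inertia_smul_eq_of_nsmul (hKL : KeyLemmaAt N) (m ℓ : ℕ) (hm : m ≠ 0) (hℓ : ℓ.Prime)
    (hℓm : ¬ ℓ ∣ N * m) (A : ValuationSubring Qb) (hA : A.LiesOverPrime ℓ)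
    (τ : GQ) (hτ : τ ∈ A.inertiaSubgroupIn ℚ) (y : JZero N)
    (hy : τ • (m • y) = m • y) : τ • y = y := by
  haveI : IsAlgClosed (IsLocalRing.ResidueField A) :=
    Fermat.Agent.FrobTrace.isAlgClosed_residueField A
  obtain ⟨⟨Y, hY⟩, rfl⟩ := Pic0.mk_surjective y
  have hY0 : Divisor.degree Y = 0 := hY
  set D : Divisor Qb (FBar N) := inertiaMap N τ Y with hD
  have hDdeg : Divisor.degree D = 0 := degree_inertiaMap τ Y hY0
  have hDc : D ∈ AddSubgroup.closure (genDiv (inertiaMapSet N A)) :=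
    AddSubgroup.subset_closure ⟨_, ⟨τ, hτ, rfl⟩, Y, hY0, rfl⟩
  have hcls : cls D hDdeg =
      τ • Pic0.mk (⟨Y, hY⟩ : Divisor.degZero) - Pic0.mk (⟨Y, hY⟩ : Divisor.degZero) := rfl
  -- `m • D` is principal
  have hmdeg : Divisor.degree (m • D) = 0 := by rw [map_nsmul, hDdeg, smul_zero]
  have hmcls : cls (m • D) hmdeg = 0 := by
    have h1 : τ • (m • Pic0.mk (⟨Y, hY⟩ : Divisor.degZero)) =
        m • (τ • Pic0.mk (⟨Y, hY⟩ : Divisor.degZero)) :=
      map_nsmul (DistribSMul.toAddMonoidHom (JZero N) τ) m _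
    rw [cls_nsmul m D hDdeg hmdeg, hcls, nsmul_sub, ← h1, hy, sub_self]
  obtain ⟨f, hf, hmD⟩ := exists_divOf_of_cls_eq_zero (m • D) hmdeg hmcls
  set S := modGData A ℓ N hℓ hA with hS
  have hKL' : ∀ w : FBar N, S.red w = 1 → (∀ P : Place Qb (FBar N), (m : ℤ) ∣ P.ord w) →
      ∃ h : FBar N, h ^ m = w := by
    intro w hw hdvd
    obtain ⟨hwmem, hwres⟩ := (modGData_red_eq_one_iff A ℓ N hℓ hA w).mp hw
    have hw0 : w ≠ 0 := S.ne_zero_of_red_ne_zero (by rw [hw]; exact one_ne_zero)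
    exact hKL m ℓ hℓ hℓm A hA w hw0 hdvd hwmem hwres
  obtain ⟨h, hh0, hDh⟩ := principal_of_mem_closure S (inertiaMapSet N A)
    (fun Λ hΛ => by
      obtain ⟨τ', hτ', rfl⟩ := hΛ
      exact isGoodMap_inertiaMap A ℓ hℓ hA τ' hτ') m hm hKL' hDc hf hmD
  have h0 : cls D hDdeg = 0 := cls_eq_zero_of_eq_divOf D hDdeg hh0 hDh
  rw [hcls, sub_eq_zero] at h0
  exact h0

/-- (UNR) for rational classes: if `m y` is fixed by `G_ℚ`, the inertia groups at the places
over `ℓ ∤ N m` fix `y`. -/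
theorem inertia_smul_eq_of_nsmul_fixed (hKL : KeyLemmaAt N) (m : ℕ) (hm : m ≠ 0) (y : JZero N)
    (hy : ∀ σ : GQ, σ • (m • y) = m • y) (ℓ : ℕ) (hℓ : ℓ.Prime) (hℓm : ¬ ℓ ∣ N * m)
    (A : ValuationSubring Qb) (hA : A.LiesOverPrime ℓ)
    (τ : GQ) (hτ : τ ∈ A.inertiaSubgroupIn ℚ) : τ • y = y :=
  inertia_smul_eq_of_nsmul hKL m ℓ hm hℓ hℓm A hA τ hτ y (hy τ)

end Fermat.Agent.S17
end
end MergeWrap_S17_W_Unram

section MergeWrap_S17_WeakMW_Abstract -- from S17/WeakMW/Abstract.lean

set_option autoImplicit false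
set_option linter.style.haveILetI false

namespace Fermat.Agent.S17

section Abstract

variable {Γ : Type*} [Group Γ] {J : Type*} [AddCommGroup J] [DistribMulAction Γ J]

/-- The Kummer function of `y`: `σ ↦ σ • y - y`. -/
def kummerFun (y : J) (σ : Γ) : J := σ • y - y

lemma kummerFun_mul (y : J) (σ τ : Γ) :
    kummerFun y (σ * τ) = σ • kummerFun y τ + kummerFun y σ := by
  simp only [kummerFun, mul_smul, smul_sub]
  abel

lemma nsmul_kummerFun (m : ℕ) (y : J) (σ : Γ) (hx : σ • (m • y) = m • y) :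
    m • kummerFun y σ = 0 := by
  have h : σ • (m • y) = m • (σ • y) := smul_comm σ m y
  rw [kummerFun, smul_sub, ← h, hx, sub_self]

lemma kummerFun_sub (y y' : J) (σ : Γ) :
    kummerFun (y - y') σ = kummerFun y σ - kummerFun y' σ := by
  simp only [kummerFun, smul_sub]
  abel

lemma smul_eq_of_kummerFun_eq {y y' : J} {σ : Γ} (h : kummerFun y σ = kummerFun y' σ) :
    σ • (y - y') = y - y' := by
  have h1 : kummerFun (y - y') σ = 0 := by rw [kummerFun_sub, h, sub_self]
  exact sub_eq_zero.mp h1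

/-- Two Kummer functions that agree on a subgroup `Γ'` and on a set of representatives of
`Γ ⧸ Γ'` agree everywhere. -/
lemma kummerFun_eq_of_eq_on (Γ' : Subgroup Γ) (s : Γ ⧸ Γ' → Γ)
    (hs : ∀ q, (QuotientGroup.mk (s q) : Γ ⧸ Γ') = q) {y y' : J}
    (h1 : ∀ τ : Γ', kummerFun y (τ : Γ) = kummerFun y' (τ : Γ))
    (h2 : ∀ q, kummerFun y (s q) = kummerFun y' (s q)) (σ : Γ) :
    kummerFun y σ = kummerFun y' σ := by
  set q : Γ ⧸ Γ' := QuotientGroup.mk σ with hq
  have hmem : (s q)⁻¹ * σ ∈ Γ' := by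
    rw [← QuotientGroup.eq]
    exact hs q
  have key : ∀ z : J, kummerFun z σ
      = s q • kummerFun z ((s q)⁻¹ * σ) + kummerFun z (s q) := by
    intro z
    rw [← kummerFun_mul]
    congr 1
    group
  rw [key y, key y', h1 ⟨_, hmem⟩, h2 q]

/-- **Abstract weak Mordell-Weil.** -/
theorem finiteIndex_nsmul_fixedPoints (m : ℕ)
    (hdiv : ∀ x : J, ∃ y : J, m • y = x)
    (htors : {t : J | m • t = 0}.Finite)
    (Γ' : Subgroup Γ) [Γ'.FiniteIndex]
    (𝓗 : Set (Γ' → J)) (h𝓗 : 𝓗.Finite)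
    (hkum : ∀ y : J, (∀ σ : Γ, σ • (m • y) = m • y) →
      (fun τ : Γ' => kummerFun y (τ : Γ)) ∈ 𝓗) :
    (nsmulAddMonoidHom (α := FixedPoints.addSubgroup Γ J) m).range.FiniteIndex := by
  classical
  -- notation
  set G : AddSubgroup J := FixedPoints.addSubgroup Γ J with hG
  have hGmem : ∀ x : G, ∀ σ : Γ, σ • (x : J) = x := fun x σ => x.2 σ
  -- a choice of `m`-th parts
  choose div hdiv' using hdiv
  have hfixdiv : ∀ x : G, ∀ σ : Γ, σ • (m • div (x : J)) = m • div (x : J) := by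
    intro x σ
    rw [hdiv']
    exact hGmem x σ
  -- a section of `Γ → Γ ⧸ Γ'`
  let s : Γ ⧸ Γ' → Γ := fun q => Quotient.out q
  have hs : ∀ q, (QuotientGroup.mk (s q) : Γ ⧸ Γ') = q := fun q => Quotient.out_eq q
  haveI : Finite (Γ ⧸ Γ') := Subgroup.finite_quotient_of_finiteIndex
  haveI : Finite 𝓗 := h𝓗.to_subtype
  haveI : Finite {t : J | m • t = 0} := htors.to_subtype
  -- the invariant
  let Ψ : G → 𝓗 × ((Γ ⧸ Γ') → {t : J | m • t = 0}) := fun x =>
    (⟨fun τ : Γ' => kummerFun (div (x : J)) (τ : Γ), hkum _ (hfixdiv x)⟩,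
      fun q => ⟨kummerFun (div (x : J)) (s q), nsmul_kummerFun m _ _ (hfixdiv x (s q))⟩)
  have hΨ : ∀ x x' : G, Ψ x = Ψ x' →
      x - x' ∈ (nsmulAddMonoidHom (α := G) m).range := by
    intro x x' h
    have h1 : ∀ τ : Γ', kummerFun (div (x : J)) (τ : Γ) = kummerFun (div (x' : J)) (τ : Γ) := by
      intro τ
      have := congrArg (fun p => (p.1 : Γ' → J) τ) h
      exact this
    have h2 : ∀ q, kummerFun (div (x : J)) (s q) = kummerFun (div (x' : J)) (s q) := by
      intro q
      have := congrArg (fun p => ((p.2 q : {t : J | m • t = 0}) : J)) h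
      exact this
    have h3 : ∀ σ : Γ, σ • (div (x : J) - div (x' : J)) = div (x : J) - div (x' : J) :=
      fun σ => smul_eq_of_kummerFun_eq (kummerFun_eq_of_eq_on Γ' s hs h1 h2 σ)
    refine ⟨⟨div (x : J) - div (x' : J), h3⟩, ?_⟩
    apply Subtype.ext
    show ((m • (⟨div (x : J) - div (x' : J), h3⟩ : G) : G) : J) = ((x - x' : G) : J)
    rw [AddSubgroup.coe_nsmul, AddSubgroup.coe_sub]
    show m • (div (x : J) - div (x' : J)) = (x : J) - (x' : J)
    rw [smul_sub, hdiv', hdiv']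
  -- finiteness of the quotient
  haveI : Finite (Set.range Ψ) := inferInstance
  have hfin : Finite (G ⧸ (nsmulAddMonoidHom (α := G) m).range) := by
    let f : Set.range Ψ → G ⧸ (nsmulAddMonoidHom (α := G) m).range :=
      fun v => QuotientAddGroup.mk (v.2.choose)
    apply Finite.of_surjective f
    intro z
    obtain ⟨x, rfl⟩ := QuotientAddGroup.mk_surjective z
    refine ⟨⟨Ψ x, x, rfl⟩, ?_⟩
    show (QuotientAddGroup.mk _ : G ⧸ (nsmulAddMonoidHom (α := G) m).range) = QuotientAddGroup.mk x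
    have hch : Ψ ((⟨Ψ x, x, rfl⟩ : Set.range Ψ).2.choose) = Ψ x :=
      (⟨Ψ x, x, rfl⟩ : Set.range Ψ).2.choose_spec
    rw [QuotientAddGroup.eq]
    have := hΨ x _ hch.symm
    have hneg : -((⟨Ψ x, x, rfl⟩ : Set.range Ψ).2.choose) + x
        = x - ((⟨Ψ x, x, rfl⟩ : Set.range Ψ).2.choose) := by abel
    rw [hneg]
    exact this
  exact AddSubgroup.finiteIndex_of_finite_quotient

end Abstract

end Fermat.Agent.S17
end MergeWrap_S17_WeakMW_Abstract

section MergeWrap_S14_SI_Defs -- from S14/SI/Defs.lean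

/-!
# S14 / H2 Route I: the second inequality (Kummer case) at finite level — definitions

Owner of the route: helper95.  Blueprint: `NOTES/blueprint-S14-SI.md`.

Everything is stated for a number field `F`, a prime number `p`, a primitive `p`-th root of unity
`ζ : F` and primes `v : HeightOneSpectrum (𝓞 F)`.  No completions, no ideles: "local" conditions
are congruence conditions on the multiplicative valuation `v.valuation F : Valuation F ℤᵐ⁰`.
-/

set_option autoImplicit false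

open NumberField IsDedekindDomain

namespace Fermat.Agent.S14SI

variable (F : Type*) [Field F] [NumberField F]

/-- `x` is a `p`-th power "in the completion at `v`", at finite level: there is `y ≠ 0` in `F`
with `v (x * y ^ p - 1) < v (ζ - 1) ^ p`.  (If `v ∤ p` this says `x * y ^ p ≡ 1 mod v`; if `v ∣ p`
it says `x * y ^ p ≡ 1 mod v ^ (p * e / (p - 1) + 1)`, `e = e(v / p)`, which is the Hensel bound.) -/
def IsLocalPow (v : HeightOneSpectrum (𝓞 F)) (p : ℕ) (ζ x : F) : Prop :=
  ∃ y : F, y ≠ 0 ∧ v.valuation F (x * y ^ p - 1) < v.valuation F (ζ - 1) ^ p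

/-- `u` is a `p`-th power modulo the prime `v`: `u ≡ z ^ p mod v` with `z ∈ 𝓞 F`, `z ∉ v`
(in particular `u` is a unit at `v`). -/
def IsPowMod (v : HeightOneSpectrum (𝓞 F)) (p : ℕ) (u : F) : Prop :=
  ∃ z : 𝓞 F, z ∉ v.asIdeal ∧ v.valuation F (u - (z : F) ^ p) < 1

variable {F} in
lemma isLocalPow_one (v : HeightOneSpectrum (𝓞 F)) {p : ℕ} {ζ : F} (hζ : ζ ≠ 1) :
    IsLocalPow F v p ζ 1 :=
  ⟨1, one_ne_zero, by simpa using pow_pos ((Valuation.pos_iff _).mpr (sub_ne_zero.mpr hζ)) p⟩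

variable {F} in
lemma valuation_sub_one_le_one (v : HeightOneSpectrum (𝓞 F)) {p : ℕ} {ζ : F}
    (hζ : IsPrimitiveRoot ζ p) (hp : 0 < p) : v.valuation F (ζ - 1) ≤ 1 := by
  have hint : IsIntegral ℤ ζ := hζ.isIntegral hp
  obtain ⟨z, hz⟩ := (IsIntegralClosure.isIntegral_iff (A := 𝓞 F)).mp hint
  have h1 : v.valuation F ζ ≤ 1 := by
    rw [← hz]; exact v.valuation_le_one z
  have h2 : v.valuation F (ζ - 1) ≤ max (v.valuation F ζ) (v.valuation F 1) :=
    Valuation.map_sub _ _ _
  refine h2.trans (max_le h1 ?_)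
  rw [Valuation.map_one]

variable {F} in
lemma IsLocalPow.mul {v : HeightOneSpectrum (𝓞 F)} {p : ℕ} {ζ a b : F}
    (hζ : v.valuation F (ζ - 1) ≤ 1)
    (ha : IsLocalPow F v p ζ a) (hb : IsLocalPow F v p ζ b) : IsLocalPow F v p ζ (a * b) := by
  obtain ⟨y, hy, h1⟩ := ha
  obtain ⟨z, hz, h2⟩ := hb
  refine ⟨y * z, mul_ne_zero hy hz, ?_⟩
  have e : (a * b) * (y * z) ^ p - 1
      = (a * y ^ p - 1) * (b * z ^ p - 1) + (a * y ^ p - 1) + (b * z ^ p - 1) := by ring
  have hle : v.valuation F (ζ - 1) ^ p ≤ 1 := pow_le_one' hζ p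
  have key : v.valuation F ((a * y ^ p - 1) * (b * z ^ p - 1)) < v.valuation F (ζ - 1) ^ p := by
    rw [Valuation.map_mul]
    calc v.valuation F (a * y ^ p - 1) * v.valuation F (b * z ^ p - 1)
        ≤ v.valuation F (a * y ^ p - 1) * 1 :=
          mul_le_mul' le_rfl (h2.le.trans hle)
      _ = v.valuation F (a * y ^ p - 1) := mul_one _
      _ < _ := h1
  rw [e]
  refine lt_of_le_of_lt (Valuation.map_add_le_max' _ _ _) (max_lt ?_ h2)
  exact lt_of_le_of_lt (Valuation.map_add_le_max' _ _ _) (max_lt key h1)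

variable {F} in
lemma IsLocalPow.inv {v : HeightOneSpectrum (𝓞 F)} {p : ℕ} {ζ a : F}
    (hζ : v.valuation F (ζ - 1) ≤ 1)
    (ha : IsLocalPow F v p ζ a) : IsLocalPow F v p ζ a⁻¹ := by
  obtain ⟨y, hy, h1⟩ := ha
  refine ⟨y⁻¹, inv_ne_zero hy, ?_⟩
  set w := a * y ^ p with hw
  have hle : v.valuation F (ζ - 1) ^ p ≤ 1 := pow_le_one' hζ p
  have hlt : v.valuation F (w - 1) < 1 := lt_of_lt_of_le h1 hle
  have hw1 : v.valuation F w = 1 := by
    have : w = 1 + (w - 1) := by ring
    rw [this]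
    exact Valuation.map_one_add_of_lt _ hlt
  have hw0 : w ≠ 0 := by
    intro h; rw [h] at hw1; simp at hw1
  have e : a⁻¹ * y⁻¹ ^ p - 1 = - (w - 1) * w⁻¹ := by
    have : a⁻¹ * y⁻¹ ^ p = w⁻¹ := by rw [hw, mul_inv, inv_pow]
    rw [this]; field_simp; ring
  rw [e, map_mul, map_inv₀, hw1, inv_one, mul_one, Valuation.map_neg]
  exact h1

/-- The subgroup `U_S` of `Fˣ` of elements that are local `p`-th powers at every prime of the
finite set `S`. -/
def localPowSubgroup (p : ℕ) (ζ : F) (hζ : IsPrimitiveRoot ζ p) (hp : 1 < p)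
    (S : Finset (HeightOneSpectrum (𝓞 F))) : Subgroup Fˣ where
  carrier := {x | ∀ v ∈ S, IsLocalPow F v p ζ (x : F)}
  one_mem' := fun v _ => by
    simpa using isLocalPow_one v (hζ.ne_one hp)
  mul_mem' := fun ha hb v hv => by
    simpa using (ha v hv).mul (valuation_sub_one_le_one v hζ (by omega)) (hb v hv)
  inv_mem' := fun ha v hv => by
    simpa using (ha v hv).inv (valuation_sub_one_le_one v hζ (by omega))

variable {F} in
lemma mem_localPowSubgroup {p : ℕ} {ζ : F} (hζ : IsPrimitiveRoot ζ p) (hp : 1 < p)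
    (S : Finset (HeightOneSpectrum (𝓞 F))) (x : Fˣ) :
    x ∈ localPowSubgroup F p ζ hζ hp S ↔ ∀ v ∈ S, IsLocalPow F v p ζ (x : F) := Iff.rfl

/-- The prime `v` of `F` splits completely in `M`: there are `[M : F]` primes of `M` above `v`. -/
def SplitsCompletely (M : Type*) [Field M] [NumberField M] [Algebra F M]
    (v : HeightOneSpectrum (𝓞 F)) : Prop :=
  (v.asIdeal.primesOver (𝓞 M)).ncard = Module.finrank F M

/-- The class of a prime in the class group. -/
noncomputable def primeClass (v : HeightOneSpectrum (𝓞 F)) : ClassGroup (𝓞 F) :=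
  ClassGroup.mk0 ⟨v.asIdeal, mem_nonZeroDivisors_of_ne_zero v.ne_bot⟩

/-- The subgroup of `Cl_F` generated by the classes of the primes in `T` and all `p`-th powers. -/
noncomputable def classSubgroup (p : ℕ) (T : Finset (HeightOneSpectrum (𝓞 F))) :
    Subgroup (ClassGroup (𝓞 F)) :=
  Subgroup.closure
    ((primeClass F '' (T : Set (HeightOneSpectrum (𝓞 F)))) ∪ Set.range (fun c => c ^ p))

/-- The `S`-units of `F` (as a subgroup of `Fˣ`), for a set `S` of primes (Mathlib's `Set.unit`):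
`x ∈ sUnits F S ↔ ∀ v ∉ S, v.valuation F x = 1`.  A `Finset` argument is coerced; for two finsets
write `sUnits F (↑S ∪ ↑T)` (union of sets: no `DecidableEq` needed). -/
noncomputable abbrev sUnits (S : Set (HeightOneSpectrum (𝓞 F))) : Subgroup Fˣ :=
  S.unit F

variable {F} in
lemma mem_sUnits (S : Set (HeightOneSpectrum (𝓞 F))) (x : Fˣ) :
    x ∈ sUnits F S ↔ ∀ v ∉ S, v.valuation F (x : F) = 1 := Iff.rfl

/-- The subgroup `E_S ^ p` of `Fˣ` of `p`-th powers of `S`-units. -/
noncomputable abbrev sUnitsPow (p : ℕ) (S : Set (HeightOneSpectrum (𝓞 F))) : Subgroup Fˣ :=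
  (sUnits F S).map (powMonoidHom p : Fˣ →* Fˣ)

/-- The primes in `S` generate the class group. -/
def GeneratesClassGroup (S : Finset (HeightOneSpectrum (𝓞 F))) : Prop :=
  Subgroup.closure (primeClass F '' (S : Set (HeightOneSpectrum (𝓞 F)))) = ⊤

/-- `S` contains all primes above `p`. -/
def ContainsPrimesAbove (p : ℕ) (S : Finset (HeightOneSpectrum (𝓞 F))) : Prop :=
  ∀ v : HeightOneSpectrum (𝓞 F), (p : 𝓞 F) ∈ v.asIdeal → v ∈ S

/-- The map `E_S → ∏_{v ∈ T} k_v^× / (k_v^×)^p` is surjective (element-level formulation):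
every family of `v`-units `c v` (`v ∈ T`) is matched, modulo `p`-th powers at every `v ∈ T`,
by an `S`-unit. -/
def ResidueSurjective (p : ℕ) (S T : Finset (HeightOneSpectrum (𝓞 F))) : Prop :=
  ∀ c : HeightOneSpectrum (𝓞 F) → F, (∀ v ∈ T, v.valuation F (c v) = 1) →
    ∃ u : Fˣ, u ∈ sUnits F S ∧ ∀ v ∈ T, IsPowMod F v p ((u : F) * c v)

end Fermat.Agent.S14SI
end MergeWrap_S14_SI_Defs

section MergeWrap_S14_SI_Interface -- from S14/SI/Interface.lean

/-!
# S14 / H2 Route I: the second inequality (Kummer case) at finite level — work packages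

Blueprint: `NOTES/blueprint-S14-SI.md` (helper95).  As in `Fermat/Agent/S14/Interface.lean`, this
file only contains the *statements* exchanged between the work packages, as `Prop`s:

* the owner of a work package proves `theorem xxx : Fermat.Agent.S14SI.Xxx` (possibly from other
  packages taken as hypotheses `(h : Yyy)`) in his own file `Fermat/Agent/S14/SI/<File>.lean`;
* nobody uses placeholders.

Standing notation: `p` an odd prime, `F` a number field, `ζ : F` a primitive `p`-th root of unity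
(so `F` is totally complex and `r₂ = [F : ℚ] / 2`), `S`, `T` finite sets of primes of `F`,
`n = r₂ + |S|`.

Dependency graph (`A ⟸ B` : "A is proved from B"):

    SecondIneqKummer ⟸ MainThm, KummerSplits, SplitNormClass                     (Assembly.lean)
    MainThm          ⟸ ExistsGoodS, ChooseT, KeyLemma, ThetaCount                (MainThm.lean)
    ChooseT          ⟸ SUnitRank, KummerNonSplit, LocalCyclic                    (ChooseT.lean)
    KummerNonSplit   ⟸ InertPrimeExists (F2'), KummerSplits                      (KummerNonSplit.lean)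
    KeyLemma         ⟸ TameFirstIneq, KummerSplits                               (KeyLemma.lean)
    ThetaCount       ⟸ SUnitRank, LocalCount                                     (ThetaCount.lean)
    TameFirstIneq    ⟸ Herbrand (helper86), SUnitRankZ, Hilbert 90, KummerUnram   (Tame/*.lean)
-/

set_option autoImplicit false

open NumberField IsDedekindDomain

namespace Fermat.Agent.S14SI

/-! ### Inputs from other clusters -/

/-- **(NS) Input from F2' (Frobenius density, cyclic case; Lib/FrobDensity/Cyclic.lean)**: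
a Galois extension `L/K` of number fields of prime degree `p` has a prime `𝔮` of `K` of prime norm
`q` outside any given finite set of rational primes which is inert in `L`. -/
def InertPrimeExists : Prop :=
  ∀ (p : ℕ) (K L : Type) [Field K] [NumberField K] [Field L] [NumberField L] [Algebra K L]
    [IsGalois K L], p.Prime → Module.finrank K L = p → ∀ B : Finset ℕ,
    ∃ (q : ℕ) (𝔮 : Ideal (𝓞 K)), q.Prime ∧ q ∉ B ∧ Ideal.absNorm 𝔮 = q ∧
      𝔮.inertiaDegIn (𝓞 L) = p

/-! ### WP1: `S`-units -/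

/-- **WP1 (`S`-unit theorem modulo `p`)**: `|E_S / E_S ^ p| = p ^ (r₂ + |S|)`.
(Dirichlet's unit theorem + `v ^ h` principal + `μ_p ⊆ F`.) -/
def SUnitRank : Prop :=
  ∀ (p : ℕ) (F : Type) [Field F] [NumberField F] (ζ : F)
    (S : Finset (HeightOneSpectrum (𝓞 F))),
    p.Prime → p ≠ 2 → IsPrimitiveRoot ζ p →
    (sUnitsPow F p S).relIndex (sUnits F S) = p ^ (Module.finrank ℚ F / 2 + S.card)

/-! ### WP2: local counts -/

/-- **WP2 (local counts)**: `[Fˣ : U_S] ≤ ∏_{v ∈ S} p² · |𝓞 / v ^ v(p)| ≤ p ^ (2 |S| + [F : ℚ])`,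
and the index is finite. -/
def LocalCount : Prop :=
  ∀ (p : ℕ) (F : Type) [Field F] [NumberField F] (ζ : F)
    (S : Finset (HeightOneSpectrum (𝓞 F))) (hp : p.Prime) (hζ : IsPrimitiveRoot ζ p),
    (localPowSubgroup F p ζ hζ hp.one_lt S).index ≠ 0 ∧
    (localPowSubgroup F p ζ hζ hp.one_lt S).index ≤ p ^ (2 * S.card + Module.finrank ℚ F)

/-- **WP2' (the residue group `k_v^× / (k_v^×)^p` is cyclic of order `p`)**, element-level:
if `v ∤ p`, `x`, `u` are units at `v` and `u` is not a `p`-th power modulo `v`, then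
`x * u ^ i` is a `p`-th power modulo `v` for some `i < p`. -/
def LocalCyclic : Prop :=
  ∀ (p : ℕ) (F : Type) [Field F] [NumberField F] (ζ x u : F) (v : HeightOneSpectrum (𝓞 F)),
    p.Prime → IsPrimitiveRoot ζ p → (p : 𝓞 F) ∉ v.asIdeal →
    v.valuation F x = 1 → v.valuation F u = 1 → ¬ IsPowMod F v p u →
    ∃ i : ℕ, i < p ∧ IsPowMod F v p (x * u ^ i)

/-! ### WP3: splitting of primes in Kummer extensions -/

/-- **WP3 (split lemma)**: if `M = F(α)`, `α ^ p = a ∈ F`, `[M : F] = p`, and `a` is a local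
`p`-th power at `v` (finite-level sense), then `v` splits completely in `M`.
Uniform proof for `v ∣ p` and `v ∤ p` via `β = (α y - 1) / (ζ - 1)`, see the blueprint. -/
def KummerSplits : Prop :=
  ∀ (p : ℕ) (F M : Type) [Field F] [NumberField F] [Field M] [NumberField M] [Algebra F M]
    [IsGalois F M] (ζ a : F) (α : M) (v : HeightOneSpectrum (𝓞 F)),
    p.Prime → IsPrimitiveRoot ζ p → Module.finrank F M = p →
    α ^ p = algebraMap F M a → (∀ b : F, algebraMap F M b ≠ α) →
    IsLocalPow F v p ζ a → SplitsCompletely F M v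

/-- **WP3' (unramified outside `p a`)**: if `v ∤ p` and `a` is a unit at `v` then every prime
of `M = F(α)`, `α ^ p = a`, above `v` is unramified. -/
def KummerUnram : Prop :=
  ∀ (p : ℕ) (F M : Type) [Field F] [NumberField F] [Field M] [NumberField M] [Algebra F M]
    [IsGalois F M] (ζ a : F) (α : M) (v : HeightOneSpectrum (𝓞 F)) (P : Ideal (𝓞 M)),
    p.Prime → IsPrimitiveRoot ζ p → Module.finrank F M = p →
    α ^ p = algebraMap F M a → (∀ b : F, algebraMap F M b ≠ α) →
    (p : 𝓞 F) ∉ v.asIdeal → v.valuation F a = 1 →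
    P.IsPrime → P.LiesOver v.asIdeal → P.ramificationIdx (𝓞 F) = 1

/-- **WP3'' (split primes are norms)**: the class of a prime which splits completely in the
Galois extension `M/F` is a norm class. -/
def SplitNormClass : Prop :=
  ∀ (F M : Type) [Field F] [NumberField F] [Field M] [NumberField M] [Algebra F M]
    [IsGalois F M] (v : HeightOneSpectrum (𝓞 F)),
    SplitsCompletely F M v → primeClass F v ∈ Fermat.Agent.S14.normClasses F M

/-! ### WP4: primes with prescribed Kummer behaviour -/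

/-- **WP4 (KNS)**: if `a` is not a `p`-th power and `u ∉ ⟨a⟩ (Fˣ)^p`, there is a prime `v`
outside a given finite set, `v ∤ p`, at which `a` and `u` are units, `a` is a `p`-th power
modulo `v` and `u` is not.  (Apply `InertPrimeExists` to `M(u^{1/p}) / M`, `M = F(a^{1/p})`.) -/
def KummerNonSplit : Prop :=
  ∀ (p : ℕ) (F : Type) [Field F] [NumberField F] (ζ a u : F)
    (B : Finset (HeightOneSpectrum (𝓞 F))),
    p.Prime → p ≠ 2 → IsPrimitiveRoot ζ p → a ≠ 0 → u ≠ 0 → (¬ ∃ b : F, b ^ p = a) →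
    (∀ (i : ℕ) (b : F), u ≠ a ^ i * b ^ p) →
    ∃ v : HeightOneSpectrum (𝓞 F), v ∉ B ∧ (p : 𝓞 F) ∉ v.asIdeal ∧
      v.valuation F a = 1 ∧ v.valuation F u = 1 ∧ IsPowMod F v p a ∧ ¬ IsPowMod F v p u

/-! ### WP5: the auxiliary set `T` -/

/-- **WP5 (choice of `T`)**: for an `S`-unit `a` which is not a `p`-th power there is a set `T`
of `n - 1 = r₂ + |S| - 1` primes outside `S`, at which `a` is a `p`-th power residue, such that
`E_S → ∏_{v ∈ T} k_v^× / p` is surjective. -/
def ChooseT : Prop :=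
  ∀ (p : ℕ) (F : Type) [Field F] [NumberField F] (ζ : F) (a : Fˣ)
    (S : Finset (HeightOneSpectrum (𝓞 F))),
    p.Prime → p ≠ 2 → IsPrimitiveRoot ζ p → ContainsPrimesAbove F p S →
    a ∈ sUnits F S → (¬ ∃ b : F, b ^ p = (a : F)) →
    ∃ T : Finset (HeightOneSpectrum (𝓞 F)), Disjoint S T ∧
      T.card + 1 = Module.finrank ℚ F / 2 + S.card ∧
      (∀ v ∈ T, IsPowMod F v p (a : F)) ∧ ResidueSurjective F p S T

/-! ### WP6: the tame first inequality -/

/-- **WP6 (first inequality, tame finite-level form)**: there is no cyclic extension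
`M = F(α)`, `α ^ p = x`, of degree `p` with `x` an `(S ∪ T)`-unit, in which all primes of `S`
split completely, when `S ⊇ {v ∣ p}` generates the class group and `E_S → ∏_T k_v^× / p` is
surjective.  (Herbrand quotient of the `(S ∪ T)`-units of `M` + Hilbert 90.) -/
def TameFirstIneq : Prop :=
  ∀ (p : ℕ) (F M : Type) [Field F] [NumberField F] [Field M] [NumberField M] [Algebra F M]
    [IsGalois F M] (ζ : F) (x : Fˣ) (α : M) (S T : Finset (HeightOneSpectrum (𝓞 F))),
    p.Prime → p ≠ 2 → IsPrimitiveRoot ζ p → Module.finrank F M = p →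
    α ^ p = algebraMap F M (x : F) → (∀ b : F, algebraMap F M b ≠ α) →
    x ∈ sUnits F (↑S ∪ ↑T) → ContainsPrimesAbove F p S → GeneratesClassGroup F S →
    Disjoint S T → (∀ v ∈ S, SplitsCompletely F M v) → ResidueSurjective F p S T → False

/-- **WP7 (key lemma)**: an `(S ∪ T)`-unit which is a local `p`-th power at all primes of `S`
is a `p`-th power. -/
def KeyLemma : Prop :=
  ∀ (p : ℕ) (F : Type) [Field F] [NumberField F] (ζ : F) (x : Fˣ)
    (S T : Finset (HeightOneSpectrum (𝓞 F))),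
    p.Prime → p ≠ 2 → IsPrimitiveRoot ζ p →
    ContainsPrimesAbove F p S → GeneratesClassGroup F S →
    Disjoint S T → ResidueSurjective F p S T →
    x ∈ sUnits F (↑S ∪ ↑T) → (∀ v ∈ S, IsLocalPow F v p ζ (x : F)) → ∃ y : F, y ^ p = (x : F)

/-! ### WP8: the index computation -/

/-- **WP8 (index computation)**: if `S` generates the class group, `|T| = r₂ + |S| - 1` and the
key lemma holds for `(S, T)`, then the classes of the primes of `T` and the `p`-th powers
generate a subgroup of index at most `p` of the class group. -/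
def ThetaCount : Prop :=
  ∀ (p : ℕ) (F : Type) [Field F] [NumberField F] (ζ : F)
    (S T : Finset (HeightOneSpectrum (𝓞 F))),
    p.Prime → p ≠ 2 → IsPrimitiveRoot ζ p → GeneratesClassGroup F S → Disjoint S T →
    T.card + 1 = Module.finrank ℚ F / 2 + S.card →
    (∀ x : Fˣ, x ∈ sUnits F (↑S ∪ ↑T) → (∀ v ∈ S, IsLocalPow F v p ζ (x : F)) →
      ∃ y : F, y ^ p = (x : F)) →
    (classSubgroup F p T).index ≤ p

/-- **WP9 (choice of `S`)**: every finite set of primes is contained in a finite set of primes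
generating the class group. -/
def ExistsGoodS : Prop :=
  ∀ (F : Type) [Field F] [NumberField F] (B : Finset (HeightOneSpectrum (𝓞 F))),
    ∃ S : Finset (HeightOneSpectrum (𝓞 F)), B ⊆ S ∧ GeneratesClassGroup F S

/-! ### The main theorem of Route I -/

/-- **Main theorem**: for `a ∈ Fˣ` not a `p`-th power there is a finite set `T` of primes
`v ∤ p` at which `a` is a unit and a `p`-th power residue (so `v` splits completely in
`F(a^{1/p})`), whose classes together with the `p`-th powers generate a subgroup of index `≤ p`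
of the class group. -/
def MainThm : Prop :=
  ∀ (p : ℕ) (F : Type) [Field F] [NumberField F] (ζ a : F),
    p.Prime → p ≠ 2 → IsPrimitiveRoot ζ p → a ≠ 0 → (¬ ∃ b : F, b ^ p = a) →
    ∃ T : Finset (HeightOneSpectrum (𝓞 F)),
      (∀ v ∈ T, (p : 𝓞 F) ∉ v.asIdeal ∧ IsPowMod F v p a) ∧ (classSubgroup F p T).index ≤ p

end Fermat.Agent.S14SI
end MergeWrap_S14_SI_Interface

section MergeWrap_S14_SI_TameInterface -- from S14/SI/TameInterface.lean

/-!
# S14 / H2 Route I, WP6: the tame first inequality — sub-packages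

Blueprint: `NOTES/blueprint-S14-SI.md`, section 3.  Setting: `M/F` Galois of odd prime degree `p`,
`σ ≠ 1` in `Gal(M/F)`, `S'` a finite set of primes of `F`,

* `E  = sUnits F S'`                       (the `S'`-units of `F`),
* `E' = sUnits M (primesAboveSet F M S')`  (the `S'`-units of `M`),
* `N  = normUnits F M : Mˣ →* Fˣ`,  `twistUnits σ : z ↦ σ z / z`.

    TameFirstIneq ⟸ TameHerbrand, TameH1, KummerUnram, TameNonNorm         (Tame.lean)
    TameNonNorm   ⟸ LocalNormProper                                         (TameNonNorm.lean)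
    TameHerbrand  ⟸ Lib/Herbrand (helper86), SUnitRankZ                     (TameHerbrand.lean)
    TameH1        ⟸ Hilbert 90 (Mathlib)                                    (TameH1.lean)
-/

set_option autoImplicit false

open NumberField IsDedekindDomain

namespace Fermat.Agent.S14SI

/-- The primes of `M` above the primes of a set `S` of primes of `F`. -/
def primesAboveSet (F M : Type*) [Field F] [NumberField F] [Field M] [NumberField M]
    [Algebra F M] (S : Set (HeightOneSpectrum (𝓞 F))) : Set (HeightOneSpectrum (𝓞 M)) :=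
  {w | ∃ v ∈ S, w.asIdeal.comap (algebraMap (𝓞 F) (𝓞 M)) = v.asIdeal}

/-- The norm `Mˣ →* Fˣ`. -/
noncomputable def normUnits (F M : Type*) [Field F] [Field M] [Algebra F M] : Mˣ →* Fˣ :=
  Units.map (Algebra.norm F : M →* F)

/-- `z ↦ σ z / z` on `Mˣ`. -/
noncomputable def twistUnits {F M : Type*} [Field F] [Field M] [Algebra F M] (σ : M ≃ₐ[F] M) :
    Mˣ →* Mˣ where
  toFun z := Units.map (σ : M →* M) z / z
  map_one' := by simp
  map_mul' a b := by
    rw [map_mul]
    exact mul_div_mul_comm _ _ _ _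

@[simp] lemma twistUnits_apply {F M : Type*} [Field F] [Field M] [Algebra F M] (σ : M ≃ₐ[F] M)
    (z : Mˣ) : twistUnits σ z = Units.map (σ : M →* M) z / z := rfl

/-- `y` is a local norm at `v` (finite-level form, for `v ∤ p`): `y` is the norm of an element of
`Mˣ` times a `p`-th power residue at `v`. -/
def IsLocalNormAt (F M : Type*) [Field F] [NumberField F] [Field M] [Algebra F M]
    (v : HeightOneSpectrum (𝓞 F)) (p : ℕ) (y : F) : Prop :=
  ∃ z : M, z ≠ 0 ∧ IsPowMod F v p (y * (Algebra.norm F z)⁻¹)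

/-- **(WP1b) `S`-unit theorem, `ℤ`-rank form**: for every number field `K` and finite set `S` of
primes, `E_S` is finitely generated of rank `#{infinite places} + |S| - 1`. -/
def SUnitRankZ : Prop :=
  ∀ (K : Type) [Field K] [NumberField K] (S : Set (HeightOneSpectrum (𝓞 K))), S.Finite →
    Module.Finite ℤ (Additive ↥(sUnits K S)) ∧
    Module.finrank ℤ (Additive ↥(sUnits K S)) + 1 = Nat.card (InfinitePlace K) + S.ncard

/-- **(Ta) Herbrand quotient of the `S'`-units**: with `t` the number of primes of `S'` which do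
not split completely in `M`, `h₀ = [E : N E']` and `h₁ = [E' ∩ ker N : (σ - 1) E']` are finite and
`h₀ * p = p ^ t * h₁`. -/
def TameHerbrand : Prop :=
  ∀ (p : ℕ) (F M : Type) [Field F] [NumberField F] [Field M] [NumberField M] [Algebra F M]
    [IsGalois F M] (σ : M ≃ₐ[F] M) (S' : Set (HeightOneSpectrum (𝓞 F))),
    p.Prime → p ≠ 2 → Module.finrank F M = p → σ ≠ 1 → S'.Finite →
    ((sUnits M (primesAboveSet F M S')).map (normUnits F M)).relIndex (sUnits F S') ≠ 0 ∧
    ((sUnits M (primesAboveSet F M S')).map (twistUnits σ)).relIndex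
        (sUnits M (primesAboveSet F M S') ⊓ (normUnits F M).ker) ≠ 0 ∧
    ((sUnits M (primesAboveSet F M S')).map (normUnits F M)).relIndex (sUnits F S') * p =
      p ^ {v | v ∈ S' ∧ ¬ SplitsCompletely F M v}.ncard *
        ((sUnits M (primesAboveSet F M S')).map (twistUnits σ)).relIndex
          (sUnits M (primesAboveSet F M S') ⊓ (normUnits F M).ker)

/-- **(Tb) `H¹(G, E') = 1`**: if all primes of `M` outside `S'` are unramified over `F` and the
primes of `S'` generate the class group of `F`, every `S'`-unit of `M` of norm `1` is of the form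
`σ z / z` with `z` an `S'`-unit of `M`.  (Hilbert 90.) -/
def TameH1 : Prop :=
  ∀ (p : ℕ) (F M : Type) [Field F] [NumberField F] [Field M] [NumberField M] [Algebra F M]
    [IsGalois F M] (σ : M ≃ₐ[F] M) (S' : Set (HeightOneSpectrum (𝓞 F))),
    p.Prime → Module.finrank F M = p → σ ≠ 1 → S'.Finite →
    (∀ w : HeightOneSpectrum (𝓞 M), w ∉ primesAboveSet F M S' →
      w.asIdeal.ramificationIdx (𝓞 F) = 1) →
    Subgroup.closure (primeClass F '' S') = ⊤ →
    sUnits M (primesAboveSet F M S') ⊓ (normUnits F M).ker ≤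
      (sUnits M (primesAboveSet F M S')).map (twistUnits σ)

/-- **(Td) the local norm group at a non-split prime `v ∤ p` is proper**: an element of
valuation `exp (-1)` (a uniformizer) and a unit which is not a `p`-th power residue cannot both
be local norms.  (Unique prime `w` above `v`; `f = p`: `v (N z) = w z ^ p`; `e = p`: `f = 1` and
`N z ≡ c ^ p mod w`.) -/
def LocalNormProper : Prop :=
  ∀ (p : ℕ) (F M : Type) [Field F] [NumberField F] [Field M] [NumberField M] [Algebra F M]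
    [IsGalois F M] (v : HeightOneSpectrum (𝓞 F)) (y u : F),
    p.Prime → Module.finrank F M = p → (p : 𝓞 F) ∉ v.asIdeal → ¬ SplitsCompletely F M v →
    v.valuation F y = WithZero.exp (-1 : ℤ) → v.valuation F u = 1 → ¬ IsPowMod F v p u →
    IsLocalNormAt F M v p y → IsLocalNormAt F M v p u → False

/-- **(Td') non-norms with prescribed behaviour at the other primes of `T`**: for every `v ∈ T`
which does not split completely there is an `(S ∪ T)`-unit which is not a local norm at `v` and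
is a `p`-th power residue at all other primes of `T`.
(From `LocalNormProper`: candidates `Y₁ = y₁ u'` with `(y₁) = v · (S-part)` (`S` generates the
class group), `u' ∈ E_S` correcting the residues at `T \ {v}`, and `U₁ ∈ E_S` a non-residue at
`v`, residue at `T \ {v}`; both exist by `ResidueSurjective`; one of them is not a local norm.) -/
def TameNonNorm : Prop :=
  ∀ (p : ℕ) (F M : Type) [Field F] [NumberField F] [Field M] [NumberField M] [Algebra F M]
    [IsGalois F M] (ζ : F) (S T : Finset (HeightOneSpectrum (𝓞 F)))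
    (v : HeightOneSpectrum (𝓞 F)),
    p.Prime → IsPrimitiveRoot ζ p → Module.finrank F M = p →
    ContainsPrimesAbove F p S → GeneratesClassGroup F S → Disjoint S T →
    ResidueSurjective F p S T → v ∈ T → ¬ SplitsCompletely F M v →
    ∃ y : Fˣ, y ∈ sUnits F (↑S ∪ ↑T) ∧ ¬ IsLocalNormAt F M v p (y : F) ∧
      ∀ v' ∈ T, v' ≠ v → IsPowMod F v' p (y : F)

end Fermat.Agent.S14SI
end MergeWrap_S14_SI_TameInterface

section MergeWrap_S14_SI_SUnitRankZ -- from S14/SI/SUnitRankZ.lean

/-!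
# S14 / H2 Route I, WP1b: the `S`-unit theorem, `ℤ`-rank form (helper48)

`theorem sUnitRankZ : SUnitRankZ`: for a number field `K` and a finite set `S` of primes, the group
`E_S` of `S`-units is finitely generated of rank `#{infinite places} + |S| - 1`.

Proof: the order map `sUnitOrd S : E_S → ℤ^S` has kernel the units of `𝓞 K` (Dirichlet's unit
theorem, Mathlib) and its range has rank `|S|`: for `v ∈ S` a generator of `v ^ h` (`h` the class
number) is an `S`-unit whose order vector is supported exactly at `v`.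
-/

set_option autoImplicit false

open NumberField IsDedekindDomain Module
open scoped nonZeroDivisors

namespace Fermat.Agent.S14SI

variable {K : Type} [Field K] [NumberField K]

/-- The order map `E_S → ℤ^S` (additive form). -/
noncomputable def sUnitOrd (S : Set (HeightOneSpectrum (𝓞 K))) :
    Additive ↥(sUnits K S) →ₗ[ℤ] (↥S → ℤ) :=
  AddMonoidHom.toIntLinearMap
    { toFun := fun x v =>
        Multiplicative.toAdd ((v : HeightOneSpectrum (𝓞 K)).valuationOfNeZero (x.toMul : Kˣ))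
      map_zero' := by
        funext v
        simp
      map_add' := fun x y => by
        funext v
        simp }

lemma sUnitOrd_apply (S : Set (HeightOneSpectrum (𝓞 K))) (x : Additive ↥(sUnits K S)) (v : ↥S) :
    sUnitOrd S x v =
      Multiplicative.toAdd ((v : HeightOneSpectrum (𝓞 K)).valuationOfNeZero (x.toMul : Kˣ)) :=
  rfl

lemma sUnitOrd_apply_eq_zero_iff (S : Set (HeightOneSpectrum (𝓞 K)))
    (x : Additive ↥(sUnits K S)) (v : ↥S) :
    sUnitOrd S x v = 0 ↔
      (v : HeightOneSpectrum (𝓞 K)).valuation K ((x.toMul : Kˣ) : K) = 1 := by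
  rw [sUnitOrd_apply, ← HeightOneSpectrum.valuationOfNeZero_eq]
  constructor
  · intro h
    have : (v : HeightOneSpectrum (𝓞 K)).valuationOfNeZero (x.toMul : Kˣ) = 1 := by
      apply Multiplicative.toAdd.injective
      simpa using h
    rw [this]; rfl
  · intro h
    have : (v : HeightOneSpectrum (𝓞 K)).valuationOfNeZero (x.toMul : Kˣ) = 1 := by
      exact_mod_cast h
    rw [this]; rfl

lemma sUnit_valuation_unit (v : HeightOneSpectrum (𝓞 K)) (u : (𝓞 K)ˣ) :
    v.valuation K (algebraMap (𝓞 K) K (u : 𝓞 K)) = 1 := by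
  have h1 := HeightOneSpectrum.valuation_of_unit_eq (K := K) v u
  have h2 := HeightOneSpectrum.valuationOfNeZero_eq (K := K) v
    (Units.map (algebraMap (𝓞 K) K : 𝓞 K →* K) u)
  rw [h1] at h2
  exact h2.symm

/-- The inclusion of the units of `𝓞 K` in the `S`-units (additive form). -/
noncomputable def sUnitIncl (S : Set (HeightOneSpectrum (𝓞 K))) :
    Additive (𝓞 K)ˣ →ₗ[ℤ] Additive ↥(sUnits K S) :=
  AddMonoidHom.toIntLinearMap <| MonoidHom.toAdditive
    { toFun := fun u => ⟨Units.map (algebraMap (𝓞 K) K : 𝓞 K →* K) u, fun v _ =>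
        sUnit_valuation_unit v u⟩
      map_one' := by
        ext; simp
      map_mul' := fun a b => by
        ext; simp }

lemma sUnitIncl_apply_coe (S : Set (HeightOneSpectrum (𝓞 K))) (u : Additive (𝓞 K)ˣ) :
    (((sUnitIncl S u).toMul : Kˣ) : K) = algebraMap (𝓞 K) K (u.toMul : 𝓞 K) := rfl

lemma sUnitIncl_injective (S : Set (HeightOneSpectrum (𝓞 K))) :
    Function.Injective (sUnitIncl S) := by
  intro a b h
  have h1 := congrArg (fun x : Additive ↥(sUnits K S) => ((x.toMul : Kˣ) : K)) h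
  simp only [sUnitIncl_apply_coe] at h1
  have h2 : (a.toMul : 𝓞 K) = (b.toMul : 𝓞 K) := RingOfIntegers.coe_injective h1
  exact congrArg Additive.ofMul (Units.ext h2)

lemma sUnitIncl_range (S : Set (HeightOneSpectrum (𝓞 K))) :
    LinearMap.range (sUnitIncl S) = LinearMap.ker (sUnitOrd S) := by
  ext x
  rw [LinearMap.mem_range, LinearMap.mem_ker]
  constructor
  · rintro ⟨u, rfl⟩
    funext v
    rw [Pi.zero_apply, sUnitOrd_apply_eq_zero_iff, sUnitIncl_apply_coe]
    exact sUnit_valuation_unit _ _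
  · intro hx
    -- all valuations of `x` are `1`
    have hall : ∀ v : HeightOneSpectrum (𝓞 K), v.valuation K ((x.toMul : Kˣ) : K) = 1 := by
      intro v
      by_cases hv : v ∈ S
      · exact (sUnitOrd_apply_eq_zero_iff S x ⟨v, hv⟩).mp (congrFun hx ⟨v, hv⟩)
      · exact x.toMul.2 v hv
    have hall' : ∀ v : HeightOneSpectrum (𝓞 K), v.valuation K (((x.toMul : Kˣ)⁻¹ : Kˣ) : K) = 1 := by
      intro v
      rw [Units.val_inv_eq_inv_val, map_inv₀, hall v, inv_one]
    obtain ⟨y, hy⟩ := HeightOneSpectrum.mem_integers_of_valuation_le_one K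
      ((x.toMul : Kˣ) : K) fun v => (hall v).le
    obtain ⟨y', hy'⟩ := HeightOneSpectrum.mem_integers_of_valuation_le_one K
      (((x.toMul : Kˣ)⁻¹ : Kˣ) : K) fun v => (hall' v).le
    have hyy' : y * y' = 1 := by
      apply RingOfIntegers.coe_injective
      rw [map_mul, hy, hy', map_one, Units.mul_inv]
    refine ⟨Additive.ofMul ⟨y, y', hyy', by rw [mul_comm]; exact hyy'⟩, ?_⟩
    apply Additive.toMul.injective
    apply Subtype.ext
    apply Units.ext
    exact hy


/-! ### The range of the order map has full rank -/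

/-- For every prime `v` there is a nonzero `π ∈ 𝓞 K` with `(π) = v ^ h`, `h ≥ 1`. -/
lemma sUnit_exists_generator (v : HeightOneSpectrum (𝓞 K)) :
    ∃ (π : 𝓞 K) (h : ℕ), 0 < h ∧ π ≠ 0 ∧ Ideal.span {π} = v.asIdeal ^ h := by
  classical
  have hv0 : v.asIdeal ∈ (Ideal (𝓞 K))⁰ := mem_nonZeroDivisors_of_ne_zero v.ne_bot
  set h := Fintype.card (ClassGroup (𝓞 K)) with hh
  have hpos : 0 < h := Fintype.card_pos
  have h1 : ClassGroup.mk0 (⟨v.asIdeal, hv0⟩ ^ h) = 1 := by
    rw [map_pow, hh, pow_card_eq_one]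
  have h2 : ((⟨v.asIdeal, hv0⟩ ^ h : (Ideal (𝓞 K))⁰) : Ideal (𝓞 K)) = v.asIdeal ^ h := by
    simp
  have h3 : (v.asIdeal ^ h).IsPrincipal := by
    rw [← h2]
    exact (ClassGroup.mk0_eq_one_iff (SetLike.coe_mem _)).mp h1
  obtain ⟨π, hπ⟩ := h3
  refine ⟨π, h, hpos, ?_, ?_⟩
  · rintro rfl
    have : v.asIdeal ^ h = ⊥ := by rw [hπ]; simp
    exact pow_ne_zero h v.ne_bot this
  · rw [hπ]

/-- If `(π) = v ^ h` then `π` is a unit at every prime `w ≠ v`. -/
lemma sUnit_valuation_generator_of_ne {v w : HeightOneSpectrum (𝓞 K)} {π : 𝓞 K} {h : ℕ}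
    (hπ : Ideal.span {π} = v.asIdeal ^ h) (hw : w ≠ v) :
    w.valuation K (algebraMap (𝓞 K) K π) = 1 := by
  rw [HeightOneSpectrum.valuation_of_algebraMap, HeightOneSpectrum.intValuation_eq_one_iff]
  intro hmem
  apply hw
  have h1 : v.asIdeal ^ h ≤ w.asIdeal := by
    rw [← hπ, Ideal.span_singleton_le_iff_mem]
    exact hmem
  have h2 : v.asIdeal ≤ w.asIdeal := w.isPrime.le_of_pow_le h1
  exact HeightOneSpectrum.ext (v.isMaximal.eq_of_le w.isPrime.ne_top h2).symm

/-- If `(π) = v ^ h`, `h ≥ 1`, then `π` is not a unit at `v`. -/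
lemma sUnit_valuation_generator_self {v : HeightOneSpectrum (𝓞 K)} {π : 𝓞 K} {h : ℕ}
    (hh : 0 < h) (hπ : Ideal.span {π} = v.asIdeal ^ h) :
    v.valuation K (algebraMap (𝓞 K) K π) ≠ 1 := by
  have hmem : π ∈ v.asIdeal := by
    have : π ∈ v.asIdeal ^ h := by rw [← hπ]; exact Ideal.mem_span_singleton_self π
    exact Ideal.pow_le_self hh.ne' this
  exact ((v.valuation_lt_one_iff_mem π).mpr hmem).ne

/-- For every `v ∈ S` there is an `S`-unit whose order vector is supported exactly at `v`. -/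
lemma sUnitOrd_exists_single (S : Set (HeightOneSpectrum (𝓞 K))) (v : ↥S) :
    ∃ x : Additive ↥(sUnits K S), sUnitOrd S x v ≠ 0 ∧ ∀ w : ↥S, w ≠ v → sUnitOrd S x w = 0 := by
  obtain ⟨π, h, hh, hπ0, hπ⟩ := sUnit_exists_generator (v : HeightOneSpectrum (𝓞 K))
  have hπK : algebraMap (𝓞 K) K π ≠ 0 := by
    rw [Ne, map_eq_zero_iff _ (RingOfIntegers.coe_injective)]
    exact hπ0
  have hmem : Units.mk0 (algebraMap (𝓞 K) K π) hπK ∈ sUnits K S := by
    intro w hw
    exact sUnit_valuation_generator_of_ne hπ (fun hwv => hw (hwv ▸ v.2))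
  refine ⟨Additive.ofMul ⟨_, hmem⟩, ?_, ?_⟩
  · rw [Ne, sUnitOrd_apply_eq_zero_iff]
    exact sUnit_valuation_generator_self hh hπ
  · intro w hw
    rw [sUnitOrd_apply_eq_zero_iff]
    exact sUnit_valuation_generator_of_ne hπ (fun hwv => hw (Subtype.ext hwv))

/-- The rank of the range of the order map is `|S|`. -/
lemma sUnitOrd_finrank_range (S : Set (HeightOneSpectrum (𝓞 K))) [Fintype ↥S] :
    finrank ℤ (LinearMap.range (sUnitOrd S)) = Fintype.card ↥S := by
  classical
  choose x hx1 hx2 using sUnitOrd_exists_single S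
  set b : ↥S → (↥S → ℤ) := fun v => sUnitOrd S (x v) with hb
  have hli : LinearIndependent ℤ b := by
    rw [Fintype.linearIndependent_iff]
    intro g hg w
    have h1 := congrFun hg w
    rw [Finset.sum_apply, Finset.sum_eq_single w] at h1
    · simp only [Pi.smul_apply, smul_eq_mul, Pi.zero_apply] at h1
      exact (mul_eq_zero.mp h1).resolve_right (hx1 w)
    · intro v _ hvw
      simp only [Pi.smul_apply, smul_eq_mul, hb]
      rw [hx2 v w (Ne.symm hvw), mul_zero]
    · intro h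
      exact absurd (Finset.mem_univ w) h
  have hle : Submodule.span ℤ (Set.range b) ≤ LinearMap.range (sUnitOrd S) := by
    rw [Submodule.span_le]
    rintro _ ⟨v, rfl⟩
    exact LinearMap.mem_range_self _ _
  apply le_antisymm
  · have := Submodule.finrank_le (LinearMap.range (sUnitOrd S))
    rwa [Module.finrank_fintype_fun_eq_card] at this
  · rw [← finrank_span_eq_card hli]
    exact Submodule.finrank_mono hle


/-! ### The `S`-unit theorem, `ℤ`-rank form -/

/-- **(WP1b)** `E_S` is finitely generated of rank `#{infinite places} + |S| - 1`. -/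
theorem sUnitRankZ : SUnitRankZ := by
  intro K _ _ S hS
  classical
  have : Fintype ↥S := hS.fintype
  have hkerfin : Module.Finite ℤ (LinearMap.ker (sUnitOrd S)) := by
    rw [← sUnitIncl_range]
    infer_instance
  have hkerrank : finrank ℤ (LinearMap.ker (sUnitOrd S)) = NumberField.Units.rank K := by
    rw [← sUnitIncl_range, LinearMap.finrank_range_of_inj (sUnitIncl_injective S),
      NumberField.Units.finrank_eq]
  have hquotfin : Module.Finite ℤ (Additive ↥(sUnits K S) ⧸ LinearMap.ker (sUnitOrd S)) :=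
    Module.Finite.equiv (sUnitOrd S).quotKerEquivRange.symm
  have hfin : Module.Finite ℤ (Additive ↥(sUnits K S)) :=
    Module.Finite.of_submodule_quotient (LinearMap.ker (sUnitOrd S))
  refine ⟨hfin, ?_⟩
  have h1 := (LinearMap.ker (sUnitOrd S)).finrank_quotient_add_finrank
  rw [LinearEquiv.finrank_eq (sUnitOrd S).quotKerEquivRange, sUnitOrd_finrank_range,
    hkerrank] at h1
  have h2 : 0 < Fintype.card (InfinitePlace K) := Fintype.card_pos
  have h3 : S.ncard = Fintype.card ↥S := by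
    rw [← Nat.card_coe_set_eq, Nat.card_eq_fintype_card]
  rw [← h1, h3, Nat.card_eq_fintype_card, NumberField.Units.rank]
  omega

end Fermat.Agent.S14SI
end MergeWrap_S14_SI_SUnitRankZ

section MergeWrap_S14_SI_ExistsGoodS -- from S14/SI/ExistsGoodS.lean

/-!
# S14 / H2 Route I, WP9: every finite set of primes is contained in a finite set of primes
generating the class group  (helper12)
-/

set_option autoImplicit false

open NumberField IsDedekindDomain
open scoped nonZeroDivisors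

namespace Fermat.Agent.S14SI

/-- The class of a nonzero ideal of `𝓞 F` lies in the subgroup generated by the classes of
finitely many primes. -/
theorem wp9_exists_finset_mk0_mem (F : Type*) [Field F] [NumberField F] (I : Ideal (𝓞 F)) :
    ∀ hI : I ∈ (Ideal (𝓞 F))⁰, ∃ S : Finset (HeightOneSpectrum (𝓞 F)),
      ClassGroup.mk0 ⟨I, hI⟩ ∈
        Subgroup.closure (primeClass F '' (S : Set (HeightOneSpectrum (𝓞 F)))) := by
  classical
  induction I using UniqueFactorizationMonoid.induction_on_prime with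
  | h₁ =>
    intro hI
    exact absurd rfl (mem_nonZeroDivisors_iff_ne_zero.mp hI)
  | h₂ J hJ =>
    intro hI
    refine ⟨∅, ?_⟩
    have hJ' : J = ⊤ := by
      rwa [Ideal.isUnit_iff] at hJ
    have : ClassGroup.mk0 ⟨J, hI⟩ = 1 := by
      rw [ClassGroup.mk0_eq_one_iff]
      subst hJ'
      exact top_isPrincipal
    rw [this]
    exact Subgroup.one_mem _
  | h₃ J P hJ hP ih =>
    intro hI
    have hP0 : P ≠ ⊥ := hP.ne_zero
    have hPprime : P.IsPrime := Ideal.isPrime_of_prime hP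
    have hPm : P ∈ (Ideal (𝓞 F))⁰ := mem_nonZeroDivisors_of_ne_zero hP0
    have hJm : J ∈ (Ideal (𝓞 F))⁰ := mem_nonZeroDivisors_of_ne_zero hJ
    obtain ⟨S, hS⟩ := ih hJm
    let v : HeightOneSpectrum (𝓞 F) := ⟨P, hPprime, hP0⟩
    refine ⟨insert v S, ?_⟩
    have hmul : ClassGroup.mk0 ⟨P * J, hI⟩ = ClassGroup.mk0 ⟨P, hPm⟩ * ClassGroup.mk0 ⟨J, hJm⟩ := by
      rw [← map_mul]
      rfl
    rw [hmul]
    refine Subgroup.mul_mem _ ?_ ?_
    · refine Subgroup.subset_closure ⟨v, ?_, rfl⟩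
      simp
    · refine Subgroup.closure_mono ?_ hS
      exact Set.image_mono (by simp)

/-- **WP9**: every finite set of primes is contained in a finite set of primes generating the
class group. -/
theorem existsGoodS : ExistsGoodS := by
  classical
  intro F _ _ B
  have hex : ∀ c : ClassGroup (𝓞 F), ∃ S : Finset (HeightOneSpectrum (𝓞 F)),
      c ∈ Subgroup.closure (primeClass F '' (S : Set (HeightOneSpectrum (𝓞 F)))) := by
    intro c
    obtain ⟨I, rfl⟩ := ClassGroup.mk0_surjective c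
    obtain ⟨S, hS⟩ := wp9_exists_finset_mk0_mem F I.1 I.2
    exact ⟨S, hS⟩
  choose Sc hSc using hex
  refine ⟨B ∪ Finset.univ.biUnion Sc, Finset.subset_union_left, ?_⟩
  rw [GeneratesClassGroup, eq_top_iff]
  intro c _
  refine Subgroup.closure_mono ?_ (hSc c)
  refine Set.image_mono ?_
  intro v hv
  simp only [Finset.coe_union, Finset.coe_biUnion, Finset.coe_univ, Set.mem_univ, Set.iUnion_true,
    Set.mem_union, Finset.mem_coe, Set.mem_iUnion]
  exact Or.inr ⟨c, hv⟩

end Fermat.Agent.S14SI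
end MergeWrap_S14_SI_ExistsGoodS

section MergeWrap_S14_SI_ClassGen -- from S14/SI/ClassGen.lean

/-!
# S14 / H2 Route I: consequences of "the primes of `S` generate the class group" (helper90)

* `valuation_eq_exp_neg_count`: `v.valuation K c = exp (- count K v (c))`.
* `exists_valuation_eq_of_closure_eq_top`: if the classes of the primes in `S` generate the
  class group, then for every finitely supported family of exponents `n_v` there is `c ∈ Kˣ`
  with `ord_v c = n_v` for all `v ∉ S`.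
-/

set_option autoImplicit false

open IsDedekindDomain FractionalIdeal

open scoped nonZeroDivisors

namespace Fermat.Agent.S14SI

section ClassGen

variable {R K : Type*} [CommRing R] [IsDedekindDomain R] [Field K] [Algebra R K]
  [IsFractionRing R K]

open HeightOneSpectrum WithZero

/-- The adic valuation of a nonzero element in terms of the `count` of its principal
fractional ideal. -/
theorem valuation_eq_exp_neg_count (v : HeightOneSpectrum R) {c : K} (hc : c ≠ 0) :
    v.valuation K c = exp (-(count K v (spanSingleton R⁰ c))) := by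
  obtain ⟨a, b, hb, rfl⟩ := IsFractionRing.div_surjective (A := R) c
  have hb0 : b ≠ 0 := nonZeroDivisors.ne_zero hb
  have ha0 : a ≠ 0 := by
    rintro rfl
    simp at hc
  have hI : spanSingleton R⁰ (algebraMap R K a / algebraMap R K b) ≠ 0 :=
    spanSingleton_ne_zero_iff.mpr hc
  have hrep : spanSingleton R⁰ (algebraMap R K a / algebraMap R K b) =
      spanSingleton R⁰ ((algebraMap R K) b)⁻¹ * ((Ideal.span {a} : Ideal R) :
        FractionalIdeal R⁰ K) := by
    rw [coeIdeal_span_singleton, spanSingleton_mul_spanSingleton, div_eq_inv_mul]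
  rw [count_well_defined K v hI hrep, map_div₀, valuation_of_algebraMap,
    valuation_of_algebraMap, v.intValuation_if_neg ha0, v.intValuation_if_neg hb0, neg_sub,
    ← exp_sub]
  congr 1
  ring

variable (K) in
/-- The subgroup of fractional ideals which are principal "away from `S`". -/
def principalAway (S : Set (HeightOneSpectrum R)) : Subgroup (FractionalIdeal R⁰ K)ˣ where
  carrier := {J | ∃ c : Kˣ, ∀ v : HeightOneSpectrum R, v ∉ S →
    count K v (J : FractionalIdeal R⁰ K) = count K v (spanSingleton R⁰ (c : K))}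
  one_mem' := ⟨1, fun v _ => by simp⟩
  mul_mem' := by
    rintro J J' ⟨c, hc⟩ ⟨c', hc'⟩
    refine ⟨c * c', fun v hv => ?_⟩
    rw [Units.val_mul, Units.val_mul, ← spanSingleton_mul_spanSingleton,
      count_mul K v J.ne_zero J'.ne_zero,
      count_mul K v (spanSingleton_ne_zero_iff.mpr c.ne_zero)
        (spanSingleton_ne_zero_iff.mpr c'.ne_zero), hc v hv, hc' v hv]
  inv_mem' := by
    rintro J ⟨c, hc⟩
    refine ⟨c⁻¹, fun v hv => ?_⟩
    rw [Units.val_inv_eq_inv_val, Units.val_inv_eq_inv_val, ← spanSingleton_inv, count_inv,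
      count_inv, hc v hv]

theorem mem_principalAway {S : Set (HeightOneSpectrum R)} {J : (FractionalIdeal R⁰ K)ˣ} :
    J ∈ principalAway K S ↔ ∃ c : Kˣ, ∀ v : HeightOneSpectrum R, v ∉ S →
      count K v (J : FractionalIdeal R⁰ K) = count K v (spanSingleton R⁰ (c : K)) := Iff.rfl

theorem toPrincipalIdeal_mem_principalAway (S : Set (HeightOneSpectrum R)) (x : Kˣ) :
    toPrincipalIdeal R K x ∈ principalAway K S :=
  ⟨x, fun v _ => by rw [coe_toPrincipalIdeal]⟩

theorem mk0_prime_mem_principalAway {S : Set (HeightOneSpectrum R)} {v' : HeightOneSpectrum R}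
    (hv' : v' ∈ S) :
    FractionalIdeal.mk0 K ⟨v'.asIdeal, mem_nonZeroDivisors_of_ne_zero v'.ne_bot⟩ ∈
      principalAway K S := by
  refine ⟨1, fun v hv => ?_⟩
  have hne : v' ≠ v := fun h => hv (h ▸ hv')
  rw [Units.val_one, spanSingleton_one, count_one, coe_mk0]
  exact count_maximal_coprime K v hne

/-- If the classes of the primes in `S` generate the class group, every invertible fractional
ideal is principal away from `S`. -/
theorem principalAway_eq_top {S : Set (HeightOneSpectrum R)}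
    (hgen : Subgroup.closure ((fun v : HeightOneSpectrum R =>
      ClassGroup.mk0 ⟨v.asIdeal, mem_nonZeroDivisors_of_ne_zero v.ne_bot⟩) '' S) = ⊤) :
    principalAway K S = ⊤ := by
  set π := QuotientGroup.mk' (toPrincipalIdeal R K).range with hπ
  set Q : Subgroup (ClassGroup R) :=
    ((principalAway K S).map π).comap (ClassGroup.equiv K).toMonoidHom with hQ
  have hQtop : Q = ⊤ := by
    rw [eq_top_iff, ← hgen, Subgroup.closure_le]
    rintro _ ⟨v', hv', rfl⟩
    rw [SetLike.mem_coe, hQ, Subgroup.mem_comap]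
    refine ⟨_, mk0_prime_mem_principalAway hv', ?_⟩
    rw [MulEquiv.coe_toMonoidHom, ClassGroup.equiv_mk0]
  rw [eq_top_iff]
  intro J _
  have h1 : (ClassGroup.equiv K).symm (π J) ∈ Q := by rw [hQtop]; trivial
  rw [hQ, Subgroup.mem_comap, MulEquiv.coe_toMonoidHom, MulEquiv.apply_symm_apply] at h1
  obtain ⟨J', hJ', hJJ'⟩ := h1
  have h2 : J'⁻¹ * J ∈ (toPrincipalIdeal R K).range := by
    rw [← QuotientGroup.eq]
    exact hJJ'
  obtain ⟨x, hx⟩ := h2
  have h3 : J = J' * toPrincipalIdeal R K x := by rw [hx]; group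
  rw [h3]
  exact (principalAway K S).mul_mem hJ' (toPrincipalIdeal_mem_principalAway S x)

/-- If the classes of the primes in `S` generate the class group, then for every finitely
supported family of exponents there is an element of `Kˣ` with these orders at all `v ∉ S`. -/
theorem exists_valuation_eq_of_closure_eq_top {S : Set (HeightOneSpectrum R)}
    (hgen : Subgroup.closure ((fun v : HeightOneSpectrum R =>
      ClassGroup.mk0 ⟨v.asIdeal, mem_nonZeroDivisors_of_ne_zero v.ne_bot⟩) '' S) = ⊤)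
    (exps : HeightOneSpectrum R →₀ ℤ) :
    ∃ c : Kˣ, ∀ v : HeightOneSpectrum R, v ∉ S → v.valuation K (c : K) = exp (-(exps v)) := by
  set I : FractionalIdeal R⁰ K :=
    exps.prod (fun v n => (v.asIdeal : FractionalIdeal R⁰ K) ^ n) with hI
  have hI0 : I ≠ 0 := by
    rw [hI, Finsupp.prod, Finset.prod_ne_zero_iff]
    intro v _
    exact zpow_ne_zero _ (coeIdeal_ne_zero.mpr v.ne_bot)
  have hmem : Units.mk0 I hI0 ∈ principalAway K S := by
    rw [principalAway_eq_top hgen]
    trivial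
  obtain ⟨c, hc⟩ := hmem
  refine ⟨c, fun v hv => ?_⟩
  rw [valuation_eq_exp_neg_count v c.ne_zero, ← hc v hv, Units.val_mk0, hI,
    count_finsuppProd]

end ClassGen

end Fermat.Agent.S14SI
end MergeWrap_S14_SI_ClassGen

section MergeWrap_Lib_KFin_Val -- from Lib/KFin/Val.lean

/-!
# KFin / Val : Kummer generators of extensions unramified outside a finite set (number fields)

Abstract number-field part of the finiteness theorem `Fermat.Agent.KFin.kfin`:

* `exists_valuation_eq_exp_of_unramified`: if `a = α ^ p` in an extension `L / K` and all primes of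
  `L` above the rational prime `q` are unramified over `ℤ`, then `p ∣ ord_v a` for every prime `v`
  of `K` above `q`;
* `exists_mul_pow_mem_sUnits`: if `p ∣ ord_v a` for all `v ∉ T` and the primes of `T` generate the
  class group, then `a * b ^ p` is a `T`-unit for some `b`;
* `exists_sUnits_generators`: the `T`-units are generated by finitely many elements.
-/

set_option autoImplicit false

open NumberField IsDedekindDomain WithZero

namespace Fermat.Agent.KFin

section Unram

variable {K L : Type*} [Field K] [NumberField K] [Field L] [NumberField L] [Algebra K L]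

/-- If `a = α ^ p` in `L` and `w ∣ v` is unramified, then `p ∣ ord_v a`. -/
theorem exists_valuation_eq_exp_of_ramificationIdx_eq_one {p : ℕ} {a : K} {α : L} (hα0 : α ≠ 0)
    (hα : α ^ p = algebraMap K L a) (v : HeightOneSpectrum (𝓞 K)) (w : HeightOneSpectrum (𝓞 L))
    [w.asIdeal.LiesOver v.asIdeal] (he : v.asIdeal.ramificationIdx' w.asIdeal = 1) :
    ∃ m : ℤ, v.valuation K a = exp ((p : ℤ) * m) := by
  have h := HeightOneSpectrum.valuation_liesOver L v w a
  rw [he, pow_one, ← hα, map_pow] at h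
  refine ⟨WithZero.log (w.valuation L α), ?_⟩
  rw [h]
  have h0 : w.valuation L α ≠ 0 := (Valuation.ne_zero_iff _).mpr hα0
  conv_lhs => rw [← WithZero.exp_log h0]
  rw [← WithZero.exp_nsmul]
  simp

/-- If `a = α ^ p` in `L`, and every prime of `L` above the rational prime `q` is unramified over
`ℤ`, then `p ∣ ord_v a` for every prime `v` of `K` above `q`. -/
theorem exists_valuation_eq_exp_of_unramified {p q : ℕ} (hq : q.Prime)
    (hunr : ∀ (P : Ideal (𝓞 L)) [P.IsPrime], (q : 𝓞 L) ∈ P → P.ramificationIdx ℤ = 1)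
    {a : K} {α : L} (hα0 : α ≠ 0) (hα : α ^ p = algebraMap K L a)
    (v : HeightOneSpectrum (𝓞 K)) (hv : (q : 𝓞 K) ∈ v.asIdeal) :
    ∃ m : ℤ, v.valuation K a = exp ((p : ℤ) * m) := by
  have hvmax : v.asIdeal.IsMaximal := v.isMaximal
  obtain ⟨Q, hQmax, hQv⟩ :=
    Ideal.exists_maximal_ideal_liesOver_of_isIntegral (S := 𝓞 L) v.asIdeal
  have hQprime : Q.IsPrime := hQmax.isPrime
  have hQ0 : Q ≠ ⊥ := Ideal.ne_bot_of_liesOver_of_ne_bot v.ne_bot Q
  let w : HeightOneSpectrum (𝓞 L) := ⟨Q, hQprime, hQ0⟩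
  have hw : w.asIdeal.LiesOver v.asIdeal := hQv
  have hqfact : Fact q.Prime := ⟨hq⟩
  have hpmax : (Ideal.span {(q : ℤ)}).IsMaximal := Int.ideal_span_isMaximal_of_prime q
  have hp0 : (Ideal.span {(q : ℤ)}) ≠ ⊥ := by
    rw [Ne, Ideal.span_singleton_eq_bot]
    exact_mod_cast hq.ne_zero
  have hvq : v.asIdeal.LiesOver (Ideal.span {(q : ℤ)}) := by
    refine ⟨?_⟩
    have hle : Ideal.span {(q : ℤ)} ≤ v.asIdeal.under ℤ := by
      rw [Ideal.span_singleton_le_iff_mem, Ideal.mem_comap]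
      simpa using hv
    have hne : v.asIdeal.under ℤ ≠ ⊤ :=
      (Ideal.comap_isPrime (algebraMap ℤ (𝓞 K)) v.asIdeal).ne_top
    exact hpmax.eq_of_le hne hle
  have hQq : Q.LiesOver (Ideal.span {(q : ℤ)}) := Ideal.LiesOver.trans Q v.asIdeal _
  have hqQ : (q : 𝓞 L) ∈ Q := by
    have h1 : (q : ℤ) ∈ Q.under ℤ := by
      rw [← Ideal.over_def Q (Ideal.span {(q : ℤ)})]
      exact Ideal.mem_span_singleton_self _
    simpa [Ideal.mem_comap] using h1
  have h1 : (Ideal.span {(q : ℤ)}).ramificationIdx' Q = 1 := by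
    rw [Ideal.ramificationIdx'_eq_ramificationIdx _ Q hp0]
    exact hunr Q hqQ
  have h2 := Ideal.ramificationIdx'_algebra_tower' (Ideal.span {(q : ℤ)}) v.asIdeal Q
  rw [h1] at h2
  have h3 : v.asIdeal.ramificationIdx' w.asIdeal = 1 := Nat.eq_one_of_mul_eq_one_left h2.symm
  exact exists_valuation_eq_exp_of_ramificationIdx_eq_one hα0 hα v w h3

end Unram

section SUnits

open Fermat.Agent.S14SI

variable (K : Type) [Field K] [NumberField K]

/-- the set of primes at which `a` is not a unit is finite. -/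
theorem finite_valuation_ne_one (a : Kˣ) :
    {v : HeightOneSpectrum (𝓞 K) | v.valuation K (a : K) ≠ 1}.Finite := by
  have h1 := HeightOneSpectrum.Support.finite (𝓞 K) (a : K)
  have h2 := HeightOneSpectrum.Support.finite (𝓞 K) ((a⁻¹ : Kˣ) : K)
  refine (h1.union h2).subset ?_
  intro v hv
  rw [Set.mem_ofPred_eq] at hv
  rcases lt_or_gt_of_ne hv with h | h
  · right
    show 1 < v.valuation K ((a⁻¹ : Kˣ) : K)
    rw [Units.val_inv_eq_inv_val, map_inv₀]
    exact (one_lt_inv₀ ((Valuation.pos_iff _).mpr a.ne_zero)).mpr h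
  · left
    exact h

/-- If `p ∣ ord_v a` for all `v ∉ T` and the primes of `T` generate the class group, then
`a * b ^ p` is a `T`-unit for some `b`. -/
theorem exists_mul_pow_mem_sUnits (T : Finset (HeightOneSpectrum (𝓞 K)))
    (hgen : GeneratesClassGroup K T) {p : ℕ} (hp : 0 < p) (a : Kˣ)
    (h : ∀ v : HeightOneSpectrum (𝓞 K), v ∉ T →
      ∃ m : ℤ, v.valuation K (a : K) = exp ((p : ℤ) * m)) :
    ∃ b : Kˣ, a * b ^ p ∈ sUnits K (T : Set (HeightOneSpectrum (𝓞 K))) := by
  classical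
  have hfin : (Function.support fun v : HeightOneSpectrum (𝓞 K) =>
      WithZero.log (v.valuation K (a : K)) / (p : ℤ)).Finite := by
    refine (finite_valuation_ne_one K a).subset ?_
    intro v hv
    rw [Function.mem_support] at hv
    rw [Set.mem_ofPred_eq]
    intro h1
    apply hv
    rw [h1]
    simp
  let exps : HeightOneSpectrum (𝓞 K) →₀ ℤ := Finsupp.ofSupportFinite _ hfin
  have hexps : ∀ v, exps v = WithZero.log (v.valuation K (a : K)) / (p : ℤ) := fun v => rfl
  obtain ⟨c, hc⟩ := exists_valuation_eq_of_closure_eq_top (K := K)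
    (S := (T : Set (HeightOneSpectrum (𝓞 K)))) hgen exps
  refine ⟨c, ?_⟩
  rw [mem_sUnits]
  intro v hv
  have hvT : v ∉ T := by simpa using hv
  obtain ⟨m, hm⟩ := h v hvT
  have hp0 : (p : ℤ) ≠ 0 := by exact_mod_cast hp.ne'
  have hm' : exps v = m := by
    rw [hexps, hm, WithZero.log_exp, Int.mul_ediv_cancel_left _ hp0]
  rw [Units.val_mul, Units.val_pow_eq_pow_val, map_mul, map_pow, hc v hv, hm, hm',
    ← WithZero.exp_nsmul, ← WithZero.exp_add]
  simp

/-- The `T`-units are generated by finitely many elements. -/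
theorem exists_sUnits_generators (T : Finset (HeightOneSpectrum (𝓞 K))) :
    ∃ (n : ℕ) (g : Fin n → Kˣ), ∀ u ∈ sUnits K (T : Set (HeightOneSpectrum (𝓞 K))),
      ∃ k : Fin n → ℤ, u = ∏ i, g i ^ k i := by
  obtain ⟨hfin, -⟩ := sUnitRankZ K (T : Set (HeightOneSpectrum (𝓞 K))) T.finite_toSet
  obtain ⟨n, s, hs⟩ := Module.Finite.exists_fin (R := ℤ)
    (M := Additive ↥(sUnits K (T : Set (HeightOneSpectrum (𝓞 K)))))
  refine ⟨n, fun i => ((Additive.toMul (s i) : ↥(sUnits K (T : Set (HeightOneSpectrum (𝓞 K))))) : Kˣ),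
    fun u hu => ?_⟩
  have hx : (Additive.ofMul (⟨u, hu⟩ : ↥(sUnits K (T : Set (HeightOneSpectrum (𝓞 K)))))) ∈
      Submodule.span ℤ (Set.range s) := by
    rw [hs]
    trivial
  obtain ⟨k, hk⟩ := (Submodule.mem_span_range_iff_exists_fun ℤ).mp hx
  refine ⟨k, ?_⟩
  have h1 := congrArg (fun y => ((Additive.toMul y :
    ↥(sUnits K (T : Set (HeightOneSpectrum (𝓞 K))))) : Kˣ)) hk
  simp only [toMul_sum, toMul_zsmul, toMul_ofMul] at h1
  rw [← h1]
  simp

/-- a natural number lying in a prime ideal is `0` or has a prime factor lying in it. -/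
theorem exists_prime_natCast_mem {R : Type*} [CommRing R] (P : Ideal R) [hP : P.IsPrime] (n : ℕ)
    (hn : (n : R) ∈ P) : n = 0 ∨ ∃ q : ℕ, q.Prime ∧ (q : R) ∈ P := by
  induction n using Nat.recOnMul with
  | zero => exact Or.inl rfl
  | one =>
    exfalso
    apply hP.ne_top
    rw [Ideal.eq_top_iff_one]
    simpa using hn
  | prime q hq => exact Or.inr ⟨q, hq, hn⟩
  | mul a b iha ihb =>
    rw [Nat.cast_mul] at hn
    rcases hP.mem_or_mem hn with h | h
    · rcases iha h with h0 | h1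
      · left; rw [h0, zero_mul]
      · exact Or.inr h1
    · rcases ihb h with h0 | h1
      · left; rw [h0, mul_zero]
      · exact Or.inr h1

/-- every prime of a number field lies above a rational prime. -/
theorem exists_prime_mem_asIdeal (v : HeightOneSpectrum (𝓞 K)) :
    ∃ q : ℕ, q.Prime ∧ (q : 𝓞 K) ∈ v.asIdeal := by
  have h1 := Ideal.absNorm_mem v.asIdeal
  have h2 : ((Ideal.absNorm v.asIdeal : ℕ) : 𝓞 K) ∈ v.asIdeal := by exact_mod_cast h1
  rcases exists_prime_natCast_mem v.asIdeal _ h2 with h | h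
  · exact absurd (Ideal.absNorm_eq_zero_iff.mp h) v.ne_bot
  · exact h

/-- **Abstract core.** There are finitely many elements `g i` of `Kˣ` such that every `a ∈ Kˣ`
with `p ∣ ord_v a` at all primes `v` not above `S₁` is of the form `∏ g i ^ k i / b ^ p`. -/
theorem exists_generators_of_dvd (p : ℕ) (hp : 0 < p) (S₁ : Finset ℕ) :
    ∃ (n : ℕ) (g : Fin n → Kˣ), ∀ a : Kˣ,
      (∀ q : ℕ, q.Prime → q ∉ S₁ → ∀ v : HeightOneSpectrum (𝓞 K), (q : 𝓞 K) ∈ v.asIdeal →
        ∃ m : ℤ, v.valuation K (a : K) = exp ((p : ℤ) * m)) →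
      ∃ (b : Kˣ) (k : Fin n → ℤ), a * b ^ p = ∏ i, g i ^ k i := by
  classical
  -- the primes above `S₁`
  set x : ℕ := ∏ q ∈ S₁.filter Nat.Prime, q with hx
  have hx0 : x ≠ 0 := by
    rw [hx, Finset.prod_ne_zero_iff]
    intro q hq
    exact ((Finset.mem_filter.mp hq).2).ne_zero
  have hxK : ((x : 𝓞 K) : K) ≠ 0 := by
    have : (x : 𝓞 K) ≠ 0 := by exact_mod_cast hx0
    simpa using this
  have hBfin : {v : HeightOneSpectrum (𝓞 K) | (x : 𝓞 K) ∈ v.asIdeal}.Finite := by
    refine (finite_valuation_ne_one K (Units.mk0 _ hxK)).subset ?_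
    intro v hv
    rw [Set.mem_ofPred_eq] at hv ⊢
    rw [Units.val_mk0]
    exact ne_of_lt ((v.valuation_lt_one_iff_mem _).mpr hv)
  obtain ⟨T, hBT, hgen⟩ := existsGoodS K hBfin.toFinset
  obtain ⟨n, g, hg⟩ := exists_sUnits_generators K T
  refine ⟨n, g, fun a ha => ?_⟩
  have h : ∀ v : HeightOneSpectrum (𝓞 K), v ∉ T →
      ∃ m : ℤ, v.valuation K (a : K) = exp ((p : ℤ) * m) := by
    intro v hv
    obtain ⟨q, hq, hqv⟩ := exists_prime_mem_asIdeal K v
    refine ha q hq ?_ v hqv
    intro hqS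
    apply hv
    apply hBT
    rw [Set.Finite.mem_toFinset, Set.mem_ofPred_eq]
    have hdvd : q ∣ x := Finset.dvd_prod_of_mem _ (Finset.mem_filter.mpr ⟨hqS, hq⟩)
    obtain ⟨c, hc⟩ := hdvd
    rw [hc, Nat.cast_mul]
    exact Ideal.mul_mem_right _ _ hqv
  obtain ⟨b, hb⟩ := exists_mul_pow_mem_sUnits K T hgen hp a h
  obtain ⟨k, hk⟩ := hg _ hb
  exact ⟨b, k, hk⟩

end SUnits

end Fermat.Agent.KFin
end MergeWrap_Lib_KFin_Val

section MergeWrap_Lib_KFin_Bridge -- from Lib/KFin/Bridge.lean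

/-!
# KFin / Bridge : unramified in the Prelude sense ⟹ unramified in the Mathlib sense

For a finite Galois extension `L / ℚ` inside `ℚ̄`: if the inertia subgroups of `Gal(ℚ̄/ℚ)` at the
valuation subrings above `q` fix `L`, then every prime of `𝓞 L` above `q` has ramification index
`1` over `ℤ`.
-/

set_option autoImplicit false

open NumberField Fermat.Agent.FrobExists

namespace Fermat.Agent.KFin

/-- The prime of `𝓞 L` below a valuation subring of `ℚ̄`. -/
noncomputable def primeBelow (L : IntermediateField ℚ Qb) (A : ValuationSubring Qb) :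
    Ideal (𝓞 L) :=
  Ideal.comap
    ({ toFun := fun x => ⟨((x : L) : Qb), mem_valuationSubring_of_isIntegral A
          (x.isIntegral_coe.map (IsScalarTower.toAlgHom ℤ L Qb))⟩
       map_one' := rfl
       map_mul' := fun _ _ => rfl
       map_zero' := rfl
       map_add' := fun _ _ => rfl } : 𝓞 L →+* A)
    (IsLocalRing.maximalIdeal A)

instance primeBelow_isPrime (L : IntermediateField ℚ Qb) (A : ValuationSubring Qb) :
    (primeBelow L A).IsPrime :=
  Ideal.comap_isPrime _ _

theorem mem_primeBelow_iff (L : IntermediateField ℚ Qb) (A : ValuationSubring Qb) (y : 𝓞 L) :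
    y ∈ primeBelow L A ↔ (((y : L) : Qb)) ∈ A.nonunits := by
  rw [primeBelow, Ideal.mem_comap, ← ValuationSubring.coe_mem_nonunits_iff]
  rfl

theorem natCast_mem_primeBelow (L : IntermediateField ℚ Qb) (A : ValuationSubring Qb) (q : ℕ)
    (hA : A.LiesOverPrime q) : ((q : ℕ) : 𝓞 L) ∈ primeBelow L A := by
  rw [mem_primeBelow_iff]
  have : (((q : 𝓞 L) : L) : Qb) = (q : Qb) := by simp
  rw [this]
  exact hA

/-- The prime below `A` is unramified if the inertia group of `A` fixes `L`. -/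
theorem isUnramifiedAt_primeBelow (L : IntermediateField ℚ Qb) [FiniteDimensional ℚ L]
    [IsGalois ℚ L] (A : ValuationSubring Qb) (q : ℕ) (hq : q.Prime) (hA : A.LiesOverPrime q)
    (h : A.inertiaSubgroupIn ℚ ≤ L.fixingSubgroup) :
    haveI : NumberField L := { to_charZero := inferInstance, to_finiteDimensional := inferInstance }
    Algebra.IsUnramifiedAt ℤ (primeBelow L A) := by
  have hnf : NumberField L :=
    { to_charZero := inferInstance, to_finiteDimensional := inferInstance }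
  by_contra hram
  have hqP := natCast_mem_primeBelow L A q hA
  have hP0 : primeBelow L A ≠ ⊥ := by
    intro h0
    rw [h0, Ideal.mem_bot] at hqP
    exact hq.ne_zero (by exact_mod_cast hqP)
  obtain ⟨s, hs1, hs⟩ := Fermat.Agent.Minkowski.exists_inertia_ne_one (primeBelow L A) hP0 hram
  obtain ⟨σ, hσI, hσs⟩ := Fermat.Agent.Minkowski.inertiaLift_holds A q hq hA L s (by
    intro x hx
    obtain ⟨y, hyP, hy⟩ := hs ⟨x, hx⟩
    have hy' : ((s x : L) : Qb) - (x : Qb) = (((y : L)) : Qb) :=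
      congrArg (fun z : L => (z : Qb)) hy
    rw [hy']
    exact (mem_primeBelow_iff L A y).mp hyP)
  have hker : σ ∈ L.fixingSubgroup := h hσI
  have h1 := Fermat.Agent.Minkowski.restrictNormalHom_eq_one_of_mem_fixingSubgroup L hker
  exact hs1 (hσs ▸ h1)

theorem liesOver_span_of_natCast_mem {R : Type*} [CommRing R] (q : ℕ) (hq : q.Prime)
    (P : Ideal R) [P.IsPrime] (hP : (q : R) ∈ P) : P.LiesOver (Ideal.span {(q : ℤ)}) := by
  have hqfact : Fact q.Prime := ⟨hq⟩
  have hpmax : (Ideal.span {(q : ℤ)}).IsMaximal := Int.ideal_span_isMaximal_of_prime q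
  refine ⟨?_⟩
  have hle : Ideal.span {(q : ℤ)} ≤ P.under ℤ := by
    rw [Ideal.span_singleton_le_iff_mem, Ideal.mem_comap]
    simpa using hP
  have hne : P.under ℤ ≠ ⊤ := (Ideal.comap_isPrime (algebraMap ℤ R) P).ne_top
  exact hpmax.eq_of_le hne hle

/-- **Bridge**: if all inertia groups above `q` fix the finite Galois extension `L / ℚ`, then all
primes of `𝓞 L` above `q` have ramification index `1`. -/
theorem ramificationIdx_eq_one_of_inertia_le (L : IntermediateField ℚ Qb) [FiniteDimensional ℚ L]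
    [IsGalois ℚ L] (q : ℕ) (hq : q.Prime)
    (h : ∀ A : ValuationSubring Qb, A.LiesOverPrime q →
      A.inertiaSubgroupIn ℚ ≤ L.fixingSubgroup)
    (P : Ideal (𝓞 L)) [P.IsPrime] (hP : (q : 𝓞 L) ∈ P) : P.ramificationIdx ℤ = 1 := by
  have hnf : NumberField L :=
    { to_charZero := inferInstance, to_finiteDimensional := inferInstance }
  obtain ⟨A, hA⟩ := exists_valuationSubring_liesOver q hq
  have hunr := isUnramifiedAt_primeBelow L A q hq hA (h A hA)
  have hqfact : Fact q.Prime := ⟨hq⟩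
  have hpmax : (Ideal.span {(q : ℤ)}).IsMaximal := Int.ideal_span_isMaximal_of_prime q
  have hl1 : P.LiesOver (Ideal.span {(q : ℤ)}) := liesOver_span_of_natCast_mem q hq P hP
  have hl0 : (primeBelow L A).LiesOver (Ideal.span {(q : ℤ)}) :=
    liesOver_span_of_natCast_mem q hq _ (natCast_mem_primeBelow L A q hA)
  let : MulSemiringAction Gal(L/ℚ) (𝓞 L) := IsIntegralClosure.MulSemiringAction ℤ ℚ L (𝓞 L)
  have hG := IsGaloisGroup.of_isFractionRing Gal(L/ℚ) ℤ (𝓞 L) ℚ L
  have h0 : (primeBelow L A).ramificationIdx ℤ = 1 := by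
    have hprime : ((primeBelow L A).under ℤ).IsPrime := inferInstance
    have hne : (primeBelow L A).under ℤ ≠ ⊥ := by
      rw [← Ideal.over_def (primeBelow L A) (Ideal.span {(q : ℤ)})]
      rw [Ne, Ideal.span_singleton_eq_bot]
      exact_mod_cast hq.ne_zero
    have hmax : ((primeBelow L A).under ℤ).IsMaximal := hprime.isMaximal hne
    exact Ideal.ramificationIdx_eq_one_iff.mpr hunr
  rw [← Ideal.ramificationIdxIn_eq_ramificationIdx (Ideal.span {(q : ℤ)}) P Gal(L/ℚ),
    Ideal.ramificationIdxIn_eq_ramificationIdx (Ideal.span {(q : ℤ)}) (primeBelow L A) Gal(L/ℚ)]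
  exact h0

end Fermat.Agent.KFin
end MergeWrap_Lib_KFin_Bridge

section MergeWrap_Lib_KFin_Core -- from Lib/KFin/Core.lean

/-!
# KFin / Core : Kummer generators of extensions of `E'` unramified outside `S₁` lie in a fixed
finite extension

`exists_field_of_kummer`: for a finite extension `E' / ℚ` inside `ℚ̄`, a prime `p`, a primitive
`p`-th root of unity `ζ` and a finite set `S₁` of primes there is a finite extension `F ⊇ E'`
containing every `α` with `α ^ p ∈ E'` which lies in a finite Galois extension `L ⊇ E'` of `ℚ`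
unramified outside `S₁` (in the sense of the Prelude: inertia subgroups fix `L`).
-/

set_option autoImplicit false

open NumberField IsDedekindDomain WithZero Fermat.Agent.FrobExists

namespace Fermat.Agent.KFin

theorem exists_field_of_kummer (p : ℕ) (hp : p.Prime) (S₁ : Finset ℕ)
    (E' : IntermediateField ℚ Qb) [FiniteDimensional ℚ E'] (ζ : Qb) (hζ : IsPrimitiveRoot ζ p) :
    ∃ F : IntermediateField ℚ Qb, FiniteDimensional ℚ F ∧ E' ≤ F ∧
      ∀ α : Qb, α ≠ 0 → α ^ p ∈ E' →
        ∀ L : IntermediateField ℚ Qb, FiniteDimensional ℚ L → IsGalois ℚ L → E' ≤ L → α ∈ L →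
          (∀ q : ℕ, q.Prime → q ∉ S₁ → ∀ A : ValuationSubring Qb, A.LiesOverPrime q →
            A.inertiaSubgroupIn ℚ ≤ L.fixingSubgroup) → α ∈ F := by
  classical
  have hnfE : NumberField E' :=
    { to_charZero := inferInstance, to_finiteDimensional := inferInstance }
  have hpne : NeZero p := ⟨hp.ne_zero⟩
  obtain ⟨n, g, hg⟩ := exists_generators_of_dvd E' p hp.pos S₁
  have hγ : ∀ i : Fin n, ∃ z : Qb, z ^ p = (((g i : (E')ˣ) : E') : Qb) := fun i =>
    IsAlgClosed.exists_pow_nat_eq _ hp.pos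
  choose γ hγ using hγ
  let F : IntermediateField ℚ Qb := E' ⊔ IntermediateField.adjoin ℚ (insert ζ (Set.range γ))
  have hfinS : Finite ↑(insert ζ (Set.range γ)) := (Set.finite_range γ).insert ζ |>.to_subtype
  have hFfin2 : FiniteDimensional ℚ (IntermediateField.adjoin ℚ (insert ζ (Set.range γ))) :=
    IntermediateField.finiteDimensional_adjoin fun x _ =>
      (isAlgebraic_Qb.isAlgebraic x).isIntegral
  have hFfin : FiniteDimensional ℚ F := IntermediateField.finiteDimensional_sup _ _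
  have hEF : E' ≤ F := le_sup_left
  have hζF : ζ ∈ F :=
    (le_sup_right : IntermediateField.adjoin ℚ (insert ζ (Set.range γ)) ≤ F)
      (IntermediateField.subset_adjoin ℚ _ (Set.mem_insert _ _))
  have hγF : ∀ i, γ i ∈ F := fun i =>
    (le_sup_right : IntermediateField.adjoin ℚ (insert ζ (Set.range γ)) ≤ F)
      (IntermediateField.subset_adjoin ℚ _ (Set.mem_insert_of_mem _ ⟨i, rfl⟩))
  refine ⟨F, hFfin, hEF, ?_⟩
  intro α hα0 hαE L hLfin hLgal hEL hαL hunr
  have hnfL : NumberField L :=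
    { to_charZero := inferInstance, to_finiteDimensional := inferInstance }
  let algEL : Algebra E' L := (IntermediateField.inclusion hEL).toRingHom.toAlgebra
  -- the element `a = α ^ p` of `E'`
  have ha0 : (⟨α ^ p, hαE⟩ : E') ≠ 0 := by
    intro h
    have := congrArg (fun z : E' => (z : Qb)) h
    exact pow_ne_zero p hα0 this
  let a : (E')ˣ := Units.mk0 ⟨α ^ p, hαE⟩ ha0
  have hα' : (⟨α, hαL⟩ : L) ^ p = algebraMap E' L (a : E') := by
    apply Subtype.ext
    rfl
  have hα0' : (⟨α, hαL⟩ : L) ≠ 0 := by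
    intro h
    exact hα0 (congrArg (fun z : L => (z : Qb)) h)
  obtain ⟨b, k, hbk⟩ := hg a (by
    intro q hq hqS v hv
    exact exists_valuation_eq_exp_of_unramified (K := E') (L := L) hq
      (fun P _ hP => ramificationIdx_eq_one_of_inertia_le L q hq (hunr q hq hqS) P hP)
      hα0' hα' v hv)
  -- transfer to `ℚ̄`
  have h1 : α ^ p * (((b : (E')ˣ) : E') : Qb) ^ p = (∏ i, γ i ^ k i) ^ p := by
    have h := congrArg (fun u : (E')ˣ => E'.val ((u : (E')ˣ) : E')) hbk
    simp only [Units.val_mul, Units.val_pow_eq_pow_val, Units.coe_prod,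
      Units.val_zpow_eq_zpow_val, map_mul, map_pow, map_prod, map_zpow₀,
      IntermediateField.coe_val] at h
    rw [← Finset.prod_pow]
    have h2 : ∀ i, (γ i ^ k i) ^ p = (((g i : (E')ˣ) : E') : Qb) ^ k i := by
      intro i
      rw [← zpow_natCast, ← zpow_mul, mul_comm, zpow_mul, zpow_natCast, hγ i]
    simp only [h2]
    rw [← h]
    rfl
  have hb0 : (((b : (E')ˣ) : E') : Qb) ≠ 0 := by
    intro h
    have : ((b : (E')ˣ) : E') = 0 := Subtype.ext h
    exact b.ne_zero this
  have hγ0 : ∀ i, γ i ≠ 0 := by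
    intro i h
    have h3 := hγ i
    rw [h, zero_pow hp.ne_zero] at h3
    have : ((g i : (E')ˣ) : E') = 0 := Subtype.ext h3.symm
    exact (g i).ne_zero this
  have hprod0 : (∏ i, γ i ^ k i) ≠ 0 :=
    Finset.prod_ne_zero_iff.mpr fun i _ => zpow_ne_zero _ (hγ0 i)
  have h3 : (α * (((b : (E')ˣ) : E') : Qb) / ∏ i, γ i ^ k i) ^ p = 1 := by
    rw [div_pow, mul_pow, h1, div_self (pow_ne_zero p hprod0)]
  obtain ⟨j, -, hj⟩ := hζ.eq_pow_of_pow_eq_one h3
  have h4 : α = ζ ^ j * (∏ i, γ i ^ k i) / (((b : (E')ˣ) : E') : Qb) := by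
    rw [hj]
    field_simp
  rw [h4]
  refine div_mem (mul_mem (pow_mem hζF j) ?_) (hEF ((b : (E')ˣ) : E').2)
  exact prod_mem fun i _ => zpow_mem (hγF i) _

end Fermat.Agent.KFin
end MergeWrap_Lib_KFin_Core

section MergeWrap_Lib_KFin_Char -- from Lib/KFin/Char.lean

/-!
# KFin / Char : characters of elementary abelian quotients and Lagrange resolvents
-/

set_option autoImplicit false

namespace Fermat.Agent.KFin

/-- A subgroup containing the commutators of `H'` is normal in `H'`. -/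
theorem kf_normal_subgroupOf {G : Type*} [Group G] (H' N' : Subgroup G)
    (hcomm : ∀ σ ∈ H', ∀ τ ∈ H', σ * τ * σ⁻¹ * τ⁻¹ ∈ N') : (N'.subgroupOf H').Normal := by
  refine ⟨fun n hn g => ?_⟩
  rw [Subgroup.mem_subgroupOf] at hn ⊢
  have h1 := hcomm g.1 g.2 n.1 n.2
  have h2 : ((g * n * g⁻¹ : H') : G) = (g.1 * n.1 * g.1⁻¹ * n.1⁻¹) * n.1 := by
    simp
  rw [h2]
  exact N'.mul_mem h1 hn

/-- **Separating characters**: if `H' / N'` is a finite elementary abelian `p`-group and
`τ ∈ H' ∖ N'`, there is a character of `H'` of exponent `p`, trivial on `N'`, nontrivial at `τ`. -/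
theorem kf_exists_char (M : Type*) [Field M] [IsAlgClosed M] [CharZero M]
    {G : Type*} [Group G] (p : ℕ) (H' N' : Subgroup G)
    (hcomm : ∀ σ ∈ H', ∀ τ ∈ H', σ * τ * σ⁻¹ * τ⁻¹ ∈ N')
    (hpow : ∀ σ ∈ H', σ ^ p ∈ N')
    (hfin : (N'.subgroupOf H').FiniteIndex)
    (τ : G) (hτH : τ ∈ H') (hτN : τ ∉ N') :
    ∃ χ : H' →* Mˣ, (∀ h : H', (h : G) ∈ N' → χ h = 1) ∧ χ ⟨τ, hτH⟩ ≠ 1 ∧
      ∀ h : H', χ h ^ p = 1 := by
  classical
  have hnorm : (N'.subgroupOf H').Normal := kf_normal_subgroupOf H' N' hcomm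
  let Q := H' ⧸ N'.subgroupOf H'
  have hfinQ : Finite Q := Subgroup.finite_quotient_of_finiteIndex
  let cg : CommGroup Q :=
    { (inferInstance : Group Q) with
      mul_comm := by
        intro a b
        induction a using QuotientGroup.induction_on with
        | H a =>
          induction b using QuotientGroup.induction_on with
          | H b =>
            rw [← QuotientGroup.mk_mul, ← QuotientGroup.mk_mul, QuotientGroup.eq,
              Subgroup.mem_subgroupOf]
            have := hcomm (b.1⁻¹) (H'.inv_mem b.2) (a.1⁻¹) (H'.inv_mem a.2)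
            have h2 : (((a * b)⁻¹ * (b * a) : H') : G) = b.1⁻¹ * a.1⁻¹ * b.1⁻¹⁻¹ * a.1⁻¹⁻¹ := by
              simp [mul_assoc]
            rw [h2]
            exact this }
  have hexp : Monoid.exponent Q ≠ 0 := Monoid.exponent_ne_zero_of_finite
  have hne : NeZero ((Monoid.exponent Q : ℕ) : M) := ⟨by exact_mod_cast hexp⟩
  have hτ1 : (QuotientGroup.mk ⟨τ, hτH⟩ : Q) ≠ 1 := by
    intro h
    rw [QuotientGroup.eq_one_iff, Subgroup.mem_subgroupOf] at h
    exact hτN h
  obtain ⟨φ, hφ⟩ := CommGroup.exists_apply_ne_one_of_hasEnoughRootsOfUnity Q M hτ1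
  refine ⟨φ.comp (QuotientGroup.mk' (N'.subgroupOf H')), ?_, hφ, ?_⟩
  · intro h hh
    have : (QuotientGroup.mk' (N'.subgroupOf H') h : Q) = 1 := by
      rw [QuotientGroup.mk'_apply, QuotientGroup.eq_one_iff, Subgroup.mem_subgroupOf]
      exact hh
    rw [MonoidHom.comp_apply, this, map_one]
  · intro h
    rw [← map_pow]
    have : (QuotientGroup.mk' (N'.subgroupOf H') (h ^ p) : Q) = 1 := by
      rw [QuotientGroup.mk'_apply, QuotientGroup.eq_one_iff, Subgroup.mem_subgroupOf]
      have := hpow h.1 h.2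
      simpa using this
    rw [MonoidHom.comp_apply, this, map_one]

end Fermat.Agent.KFin
end MergeWrap_Lib_KFin_Char

section MergeWrap_Lib_KFin_Resolvent -- from Lib/KFin/Resolvent.lean

/-!
# KFin / Resolvent : Lagrange resolvents for a character of an open subgroup of a Galois group
-/

set_option autoImplicit false

namespace Fermat.Agent.KFin

/-- **Lagrange resolvent.**  Let `C ≤ H'` be subgroups of `Gal(K/k)`, `C` normal and closed
(in the sense that it is the fixing subgroup of its fixed field) and of finite index in `H'`, and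
let `χ : H' → Kˣ` be a character trivial on `C` whose values are fixed by `H'`.  Then there is
`α ≠ 0` in the fixed field of `C` with `σ α = χ(σ) α` for all `σ ∈ H'`. -/
theorem kf_exists_resolvent {k K : Type*} [Field k] [Field K] [Algebra k K]
    (H' C : Subgroup (K ≃ₐ[k] K)) (hCH : C ≤ H') (hCn : C.Normal)
    (hfin : (C.subgroupOf H').FiniteIndex)
    (hCclosed : (IntermediateField.fixedField C).fixingSubgroup ≤ C)
    (χ : H' →* Kˣ) (hχC : ∀ h : H', (h : K ≃ₐ[k] K) ∈ C → χ h = 1)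
    (hχfix : ∀ σ h : H', (σ : K ≃ₐ[k] K) ((χ h : Kˣ) : K) = ((χ h : Kˣ) : K)) :
    ∃ α : K, α ≠ 0 ∧ α ∈ IntermediateField.fixedField C ∧
      ∀ σ : H', (σ : K ≃ₐ[k] K) α = ((χ σ : Kˣ) : K) * α := by
  classical
  have hN : (C.subgroupOf H').Normal := inferInstance
  let L : IntermediateField k K := IntermediateField.fixedField C
  let Q := H' ⧸ C.subgroupOf H'
  have hfinQ : Finite Q := Subgroup.finite_quotient_of_finiteIndex
  let _ : Fintype Q := Fintype.ofFinite Q
  -- the monoid homs `θ ↦ x.out θ`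
  let f : Q → (L →* K) := fun x =>
    ((((Quotient.out x : H') : K ≃ₐ[k] K) : K →+* K).comp (algebraMap L K)).toMonoidHom
  have hf_apply : ∀ (x : Q) (θ : L), f x θ = ((Quotient.out x : H') : K ≃ₐ[k] K) (θ : K) :=
    fun _ _ => rfl
  have hf_inj : Function.Injective f := by
    intro x y hxy
    have h1 : ∀ θ : L, ((Quotient.out x : H') : K ≃ₐ[k] K) (θ : K) =
        ((Quotient.out y : H') : K ≃ₐ[k] K) (θ : K) := fun θ => by
      rw [← hf_apply, ← hf_apply, hxy]
    have h2 : ((Quotient.out x : H') : K ≃ₐ[k] K)⁻¹ * ((Quotient.out y : H') : K ≃ₐ[k] K) ∈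
        L.fixingSubgroup := by
      rw [IntermediateField.mem_fixingSubgroup_iff]
      intro θ hθ
      have := h1 ⟨θ, hθ⟩
      show ((Quotient.out x : H') : K ≃ₐ[k] K).symm (((Quotient.out y : H') : K ≃ₐ[k] K) θ) = θ
      rw [AlgEquiv.symm_apply_eq]
      exact this.symm
    have h3 := hCclosed h2
    have h4 : (QuotientGroup.mk (Quotient.out x) : Q) = QuotientGroup.mk (Quotient.out y) := by
      rw [QuotientGroup.eq, Subgroup.mem_subgroupOf]
      simpa using h3
    rwa [QuotientGroup.out_eq', QuotientGroup.out_eq'] at h4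
  have hli : LinearIndependent K (fun x : Q => ((f x : L →* K) : L → K)) :=
    (linearIndependent_monoidHom L K).comp f hf_inj
  have hex : ∃ θ : L, ∑ x : Q, (((χ (Quotient.out x))⁻¹ : Kˣ) : K) *
      ((Quotient.out x : H') : K ≃ₐ[k] K) (θ : K) ≠ 0 := by
    by_contra hcon
    push Not at hcon
    have h0 := Fintype.linearIndependent_iff.mp hli
      (fun x => (((χ (Quotient.out x))⁻¹ : Kˣ) : K)) (by
        funext θ
        rw [Finset.sum_apply]
        simpa [hf_apply] using hcon θ) (1 : Q)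
    exact Units.ne_zero _ h0
  obtain ⟨θ, hθ⟩ := hex
  -- the function `g` on `H'` and its descent to `Q`
  let g : H' → K := fun h => (((χ h)⁻¹ : Kˣ) : K) * (h : K ≃ₐ[k] K) (θ : K)
  have hg : ∀ h c : H', (c : K ≃ₐ[k] K) ∈ C → g (h * c) = g h := by
    intro h c hc
    have h1 : χ c = 1 := hχC c hc
    have h2 : (c : K ≃ₐ[k] K) (θ : K) = θ := θ.2 ⟨c.1, hc⟩
    show (((χ (h * c))⁻¹ : Kˣ) : K) * ((h * c : H') : K ≃ₐ[k] K) (θ : K) = _
    rw [map_mul, h1, mul_one]
    show _ * (h : K ≃ₐ[k] K) ((c : K ≃ₐ[k] K) (θ : K)) = _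
    rw [h2]
  have hgQ : ∀ h : H', g (Quotient.out (QuotientGroup.mk h : Q)) = g h := by
    intro h
    have h1 : (QuotientGroup.mk (Quotient.out (QuotientGroup.mk h : Q)) : Q) =
        QuotientGroup.mk h := QuotientGroup.out_eq' _
    rw [eq_comm, QuotientGroup.eq, Subgroup.mem_subgroupOf] at h1
    have h2 := hg h (h⁻¹ * Quotient.out (QuotientGroup.mk h : Q)) h1
    rw [mul_inv_cancel_left] at h2
    exact h2
  have hequiv : ∀ σ : H', (σ : K ≃ₐ[k] K) (∑ x : Q, g (Quotient.out x)) =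
      ((χ σ : Kˣ) : K) * ∑ x : Q, g (Quotient.out x) := by
    intro σ
    rw [map_sum]
    have h1 : ∀ x : Q, (σ : K ≃ₐ[k] K) (g (Quotient.out x)) =
        ((χ σ : Kˣ) : K) * g (Quotient.out ((QuotientGroup.mk σ : Q) * x)) := by
      intro x
      have h2 : (QuotientGroup.mk σ : Q) * x = QuotientGroup.mk (σ * Quotient.out x) := by
        rw [QuotientGroup.mk_mul, QuotientGroup.out_eq']
      rw [h2, hgQ]
      show (σ : K ≃ₐ[k] K) ((((χ (Quotient.out x))⁻¹ : Kˣ) : K) *
          ((Quotient.out x : H') : K ≃ₐ[k] K) (θ : K)) =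
        ((χ σ : Kˣ) : K) * ((((χ (σ * Quotient.out x))⁻¹ : Kˣ) : K) *
          ((σ * Quotient.out x : H') : K ≃ₐ[k] K) (θ : K))
      rw [map_mul, map_mul, mul_inv_rev, ← map_inv, hχfix, ← mul_assoc]
      have h3 : ((χ σ : Kˣ) : K) * (((χ (Quotient.out x)⁻¹ * (χ σ)⁻¹ : Kˣ)) : K) =
          ((χ (Quotient.out x)⁻¹ : Kˣ) : K) := by
        rw [← Units.val_mul, mul_comm (χ (Quotient.out x)⁻¹), mul_inv_cancel_left]
      rw [h3]
      rfl
    rw [Finset.sum_congr rfl (fun x _ => h1 x), ← Finset.mul_sum]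
    congr 1
    exact Equiv.sum_comp (Equiv.mulLeft (QuotientGroup.mk σ : Q)) (fun x => g (Quotient.out x))
  refine ⟨∑ x : Q, g (Quotient.out x), hθ, ?_, hequiv⟩
  rintro ⟨c, hc⟩
  have h1 := hequiv ⟨c, hCH hc⟩
  rw [hχC ⟨c, hCH hc⟩ hc, Units.val_one, one_mul] at h1
  exact h1

end Fermat.Agent.KFin
end MergeWrap_Lib_KFin_Resolvent

section MergeWrap_Lib_KFin_Main -- from Lib/KFin/Main.lean

/-!
# KFin / Main : finiteness of the maximal elementary abelian `p`-extension unramified outside `S`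

`kfin`: for an open subgroup `H` of `G_ℚ`, a prime `p` and a finite set `S` of primes there is a
finite extension `F / ℚ` with `Gal(ℚ̄/F) ≤ H` such that `Gal(ℚ̄/F) ≤ N` for every open subgroup
`N ≤ H` containing the commutators and `p`-th powers of `H` and all inertia groups at the primes
outside `S`.  (Kummer theory over `E(ζ_p)`, `E` the fixed field of `H`; no discriminant bounds.)
-/

set_option autoImplicit false

open Fermat.Agent.FrobExists

namespace Fermat.Agent.KFin

attribute [local instance] isGalois_Qb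

/-- An open subgroup is the fixing subgroup of its fixed field. -/
theorem kf_fixingSubgroup_fixedField (H : Subgroup GQ) (L₀ : IntermediateField ℚ Qb)
    [FiniteDimensional ℚ L₀] (h : L₀.fixingSubgroup ≤ H) :
    (IntermediateField.fixedField H).fixingSubgroup = H := by
  have hopen : IsOpen (H : Set GQ) :=
    Subgroup.isOpen_mono h (IntermediateField.fixingSubgroup_isOpen L₀)
  have hclosed : IsClosed (H : Set GQ) := Subgroup.isClosed_of_isOpen H hopen
  exact InfiniteGalois.fixingSubgroup_fixedField ⟨H, hclosed⟩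

theorem kf_fixedField_le (H : Subgroup GQ) (L₀ : IntermediateField ℚ Qb)
    (h : L₀.fixingSubgroup ≤ H) : IntermediateField.fixedField H ≤ L₀ := by
  rw [← InfiniteGalois.fixedField_fixingSubgroup L₀, IntermediateField.le_iff_le]
  intro σ hσ
  have h1 := (IntermediateField.le_iff_le H (IntermediateField.fixedField H)).mp le_rfl (h hσ)
  exact h1

theorem kf_finiteDimensional_of_le {L₁ L₂ : IntermediateField ℚ Qb} (hle : L₁ ≤ L₂)
    [FiniteDimensional ℚ L₂] : FiniteDimensional ℚ L₁ :=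
  FiniteDimensional.of_injective (IntermediateField.inclusion hle).toLinearMap
    (IntermediateField.inclusion_injective hle)

theorem kf_finiteIndex_fixingSubgroup (F : IntermediateField ℚ Qb) [FiniteDimensional ℚ F] :
    F.fixingSubgroup.FiniteIndex := by
  refine ⟨?_⟩
  rw [← IntermediateField.finrank_eq_fixingSubgroup_index]
  exact Module.finrank_pos.ne'

theorem kf_mem_fixingSubgroup_adjoin_simple (σ : GQ) (ζ : Qb) (h : σ ζ = ζ) :
    σ ∈ (IntermediateField.adjoin ℚ {ζ}).fixingSubgroup := by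
  rw [← Subgroup.zpowers_le, ← IntermediateField.le_iff_le,
    IntermediateField.adjoin_simple_le_iff]
  rintro ⟨g, hg⟩
  obtain ⟨n, rfl⟩ := Subgroup.mem_zpowers_iff.mp hg
  have hfix : σ ∈ MulAction.stabilizer GQ ζ := h
  exact (Subgroup.zpow_mem _ hfix n)

/-- **Finiteness of the maximal elementary abelian `p`-extension unramified outside `S`.** -/
theorem kfin (p : ℕ) (hp : p.Prime) (S : Finset ℕ) (H : Subgroup GQ)
    (hH : ∃ L₀ : IntermediateField ℚ Qb, FiniteDimensional ℚ L₀ ∧ L₀.fixingSubgroup ≤ H) :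
    ∃ F : IntermediateField ℚ Qb, FiniteDimensional ℚ F ∧ F.fixingSubgroup ≤ H ∧
      ∀ N : Subgroup GQ, N ≤ H →
        (∃ L : IntermediateField ℚ Qb, FiniteDimensional ℚ L ∧ L.fixingSubgroup ≤ N) →
        (∀ σ ∈ H, ∀ τ ∈ H, σ * τ * σ⁻¹ * τ⁻¹ ∈ N) →
        (∀ σ ∈ H, σ ^ p ∈ N) →
        (∀ q : ℕ, q.Prime → q ∉ S → ∀ A : ValuationSubring Qb, A.LiesOverPrime q →
            A.inertiaSubgroupIn ℚ ≤ N) →
        F.fixingSubgroup ≤ N := by
  classical
  obtain ⟨L₀, hL₀, hL₀H⟩ := hH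
  let E : IntermediateField ℚ Qb := IntermediateField.fixedField H
  have hEH : E.fixingSubgroup = H := kf_fixingSubgroup_fixedField H L₀ hL₀H
  have hEL₀ : E ≤ L₀ := kf_fixedField_le H L₀ hL₀H
  have hEfin : FiniteDimensional ℚ E := kf_finiteDimensional_of_le hEL₀
  have hpne : NeZero ((p : ℕ) : ℚ) := ⟨by exact_mod_cast hp.ne_zero⟩
  have hpne' : NeZero p := ⟨hp.ne_zero⟩
  obtain ⟨ζ, hζ⟩ := HasEnoughRootsOfUnity.exists_primitiveRoot Qb p
  let Z : IntermediateField ℚ Qb := IntermediateField.adjoin ℚ {ζ}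
  have hZfin : FiniteDimensional ℚ Z :=
    IntermediateField.adjoin.finiteDimensional (isAlgebraic_Qb.isAlgebraic ζ).isIntegral
  let E' : IntermediateField ℚ Qb := E ⊔ Z
  have hE'fin : FiniteDimensional ℚ E' := IntermediateField.finiteDimensional_sup E Z
  have hζE' : ζ ∈ E' :=
    (le_sup_right : Z ≤ E') (IntermediateField.mem_adjoin_simple_self ℚ ζ)
  obtain ⟨F, hFfin, hE'F, hF⟩ := exists_field_of_kummer p hp (insert p S) E' ζ hζ
  refine ⟨F, hFfin, ?_, ?_⟩
  · rw [← hEH]
    exact IntermediateField.fixingSubgroup_antitone ((le_sup_left : E ≤ E').trans hE'F)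
  intro N hNH hNopen hcomm hpow hunr τ hτF
  obtain ⟨L, hLfin, hLN⟩ := hNopen
  by_contra hτN
  let H' : Subgroup GQ := E'.fixingSubgroup
  have hH'H : H' ≤ H := by
    rw [← hEH]
    exact IntermediateField.fixingSubgroup_antitone (le_sup_left : E ≤ E')
  have hτH' : τ ∈ H' := IntermediateField.fixingSubgroup_antitone hE'F hτF
  let N' : Subgroup GQ := N ⊓ H'
  have hN'H' : N' ≤ H' := inf_le_right
  have hτN' : τ ∉ N' := fun h => hτN h.1
  have hcomm' : ∀ σ ∈ H', ∀ τ ∈ H', σ * τ * σ⁻¹ * τ⁻¹ ∈ N' := fun σ hσ τ hτ =>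
    ⟨hcomm σ (hH'H hσ) τ (hH'H hτ),
      H'.mul_mem (H'.mul_mem (H'.mul_mem hσ hτ) (H'.inv_mem hσ)) (H'.inv_mem hτ)⟩
  have hpow' : ∀ σ ∈ H', σ ^ p ∈ N' := fun σ hσ => ⟨hpow σ (hH'H hσ), H'.pow_mem hσ p⟩
  -- a finite level for `N'`
  let L' : IntermediateField ℚ Qb := L ⊔ E'
  have hL'fin : FiniteDimensional ℚ L' := IntermediateField.finiteDimensional_sup L E'
  have hL'N' : L'.fixingSubgroup ≤ N' := by
    intro σ hσ
    rw [IntermediateField.fixingSubgroup_sup] at hσ
    exact ⟨hLN hσ.1, hσ.2⟩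
  have hfinL' : L'.fixingSubgroup.FiniteIndex := kf_finiteIndex_fixingSubgroup L'
  have hfinN'0 : N'.FiniteIndex := Subgroup.finiteIndex_of_le hL'N'
  have hfinN' : (N'.subgroupOf H').FiniteIndex := inferInstance
  obtain ⟨χ, hχN', hχτ, hχp⟩ := kf_exists_char Qb p H' N' hcomm' hpow' hfinN' τ hτH' hτN'
  -- the kernel of `χ` and its normal core
  let N₁ : Subgroup GQ := (χ.ker).map H'.subtype
  have hN₁ : ∀ σ : GQ, σ ∈ N₁ ↔ ∃ h : σ ∈ H', χ ⟨σ, h⟩ = 1 := by
    intro σ
    constructor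
    · rintro ⟨x, hx, rfl⟩
      exact ⟨x.2, hx⟩
    · rintro ⟨h, hx⟩
      exact ⟨⟨σ, h⟩, hx, rfl⟩
  have hN₁H' : N₁ ≤ H' := fun σ hσ => ((hN₁ σ).mp hσ).1
  have hN'N₁ : N' ≤ N₁ := fun σ hσ => (hN₁ σ).mpr ⟨hσ.2, hχN' ⟨σ, hσ.2⟩ hσ⟩
  let C : Subgroup GQ := N₁.normalCore
  have hCN₁ : C ≤ N₁ := Subgroup.normalCore_le N₁
  have hCH' : C ≤ H' := hCN₁.trans hN₁H'
  have hCn : C.Normal := Subgroup.normalCore_normal N₁
  -- `C` is open
  let L₂ : IntermediateField ℚ Qb := IntermediateField.normalClosure ℚ L' Qb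
  have hL₂fin : FiniteDimensional ℚ L₂ := normalClosure.is_finiteDimensional ℚ L' Qb
  have hL₂gal : IsGalois ℚ L₂ := IsGalois.normalClosure ℚ L' Qb
  have hL₂norm : L₂.fixingSubgroup.Normal := (InfiniteGalois.normal_iff_isGalois L₂).mpr hL₂gal
  have hL'L₂ : L' ≤ L₂ := IntermediateField.le_normalClosure L'
  have hL₂C : L₂.fixingSubgroup ≤ C :=
    Subgroup.normal_le_normalCore.mpr fun σ hσ =>
      hN'N₁ (hL'N' (IntermediateField.fixingSubgroup_antitone hL'L₂ hσ))
  let M : IntermediateField ℚ Qb := IntermediateField.fixedField C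
  have hMC : M.fixingSubgroup = C := kf_fixingSubgroup_fixedField C L₂ hL₂C
  have hML₂ : M ≤ L₂ := kf_fixedField_le C L₂ hL₂C
  have hMfin : FiniteDimensional ℚ M := kf_finiteDimensional_of_le hML₂
  have hMgal : IsGalois ℚ M := (InfiniteGalois.normal_iff_isGalois M).mp (by rw [hMC]; exact hCn)
  have hE'M : E' ≤ M := (IntermediateField.le_iff_le C E').mpr hCH'
  -- the values of `χ` lie in `E'`
  have hχE' : ∀ h : H', ((χ h : Qbˣ) : Qb) ∈ E' := by
    intro h
    have h1 : ((χ h : Qbˣ) : Qb) ^ p = 1 := by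
      rw [← Units.val_pow_eq_pow_val, hχp h, Units.val_one]
    obtain ⟨j, -, hj⟩ := hζ.eq_pow_of_pow_eq_one h1
    rw [← hj]
    exact pow_mem hζE' j
  have hχfix : ∀ σ h : H', (σ : GQ) ((χ h : Qbˣ) : Qb) = ((χ h : Qbˣ) : Qb) := fun σ h =>
    (IntermediateField.mem_fixingSubgroup_iff E' σ.1).mp σ.2 _ (hχE' h)
  have hfinL₂ : L₂.fixingSubgroup.FiniteIndex := kf_finiteIndex_fixingSubgroup L₂
  have hfinC0 : C.FiniteIndex := Subgroup.finiteIndex_of_le hL₂C
  have hfinC : (C.subgroupOf H').FiniteIndex := inferInstance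
  obtain ⟨α, hα0, hαM, hασ⟩ := kf_exists_resolvent H' C hCH' hCn hfinC (le_of_eq hMC) χ
    (fun h hh => ((hN₁ h.1).mp (hCN₁ hh)).2) hχfix
  -- `α ^ p ∈ E'`
  have hαp : α ^ p ∈ E' := by
    rw [← InfiniteGalois.fixedField_fixingSubgroup E']
    rintro ⟨σ, hσ⟩
    show σ (α ^ p) = α ^ p
    rw [map_pow, hασ ⟨σ, hσ⟩, mul_pow, ← Units.val_pow_eq_pow_val, hχp, Units.val_one, one_mul]
  -- `M` is unramified outside `S ∪ {p}`
  have hunrM : ∀ q : ℕ, q.Prime → q ∉ insert p S → ∀ A : ValuationSubring Qb,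
      A.LiesOverPrime q → A.inertiaSubgroupIn ℚ ≤ M.fixingSubgroup := by
    intro q hq hqS A hA σ hσ
    rw [hMC]
    intro b
    have h1 := kf_conj_mem_inertiaSubgroupIn (K := ℚ) A b σ hσ
    have h2 := kf_liesOverPrime_smul (K := ℚ) A b q hA
    have hqp : q ≠ p := fun h => hqS (h ▸ Finset.mem_insert_self _ _)
    have hqS' : q ∉ S := fun h => hqS (Finset.mem_insert_of_mem h)
    have hqp' : ¬ q ∣ p := fun h => hqp ((Nat.prime_dvd_prime_iff_eq hq hp).mp h)
    have h3 : b * σ * b⁻¹ ∈ N := hunr q hq hqS' _ h2 h1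
    have h4 : b * σ * b⁻¹ ∈ H' := by
      show _ ∈ (E ⊔ Z).fixingSubgroup
      rw [IntermediateField.fixingSubgroup_sup]
      refine ⟨?_, ?_⟩
      · rw [hEH]
        exact hNH h3
      · exact kf_mem_fixingSubgroup_adjoin_simple _ ζ
          (kf_inertia_fix_root p hp.ne_zero hq hqp' _ h2 _ h1 hζ.pow_eq_one)
    exact hN'N₁ ⟨h3, h4⟩
  have hαF : α ∈ F := hF α hα0 hαp M hMfin hMgal hE'M hαM hunrM
  have h1 := hασ ⟨τ, hτH'⟩
  have h2 : τ α = α := (IntermediateField.mem_fixingSubgroup_iff F τ).mp hτF α hαF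
  rw [h2] at h1
  have h3 : ((χ ⟨τ, hτH'⟩ : Qbˣ) : Qb) = 1 := by
    have h4 : ((χ ⟨τ, hτH'⟩ : Qbˣ) : Qb) * α = 1 * α := by rw [one_mul]; exact h1.symm
    exact mul_right_cancel₀ hα0 h4
  exact hχτ (Units.ext h3)

end Fermat.Agent.KFin
end MergeWrap_Lib_KFin_Main

section MergeWrap_S17_W_Half -- from S17/W/Half.lean

set_option autoImplicit false

noncomputable section

namespace Fermat.Agent.S17W

open ModularCurve AlgebraicCurve

local notation "Qb" => AlgebraicClosure ℚ
local notation "GQ" => (AlgebraicClosure ℚ ≃ₐ[ℚ] AlgebraicClosure ℚ)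

variable (N : ℕ) [NeZero N]

/-- The pointwise stabiliser of the `2`-torsion of `J₀(N)(ℚ̄)`. -/
def stabTwo : Subgroup GQ where
  carrier := {σ | ∀ t : JZero N, (2 : ℕ) • t = 0 → σ • t = t}
  one_mem' := fun t _ => one_smul _ t
  mul_mem' := by
    intro σ τ hσ hτ t ht
    rw [mul_smul, hτ t ht, hσ t ht]
  inv_mem' := by
    intro σ hσ t ht
    rw [inv_smul_eq_iff, hσ t ht]

theorem mem_stabTwo {σ : GQ} :
    σ ∈ stabTwo N ↔ ∀ t : JZero N, (2 : ℕ) • t = 0 → σ • t = t := Iff.rfl

/-- finitely many torsion points are fixed by a common open subgroup. -/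
theorem exists_field_fixing_finite (s : Set (JZero N)) (hs : s.Finite)
    (htors : ∀ t ∈ s, (2 : ℕ) • t = 0) :
    ∃ L : IntermediateField ℚ Qb, FiniteDimensional ℚ L ∧
      ∀ σ : GQ, (∀ a ∈ L, σ a = a) → ∀ t ∈ s, σ • t = t := by
  induction s, hs using Set.Finite.induction_on with
  | empty => exact ⟨⊥, inferInstance, fun _ _ t ht => absurd ht (Set.notMem_empty t)⟩
  | @insert t s _ _ ih =>
    obtain ⟨L₁, hL₁, h₁⟩ := ih fun u hu => htors u (Set.mem_insert_of_mem t hu)
    obtain ⟨L₂, hL₂, h₂⟩ := Fermat.Agent.F3.torsionOpenStab N 2 two_pos t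
      (htors t (Set.mem_insert t s))
    refine ⟨L₁ ⊔ L₂, IntermediateField.finiteDimensional_sup L₁ L₂, fun σ hσ u hu => ?_⟩
    rcases Set.mem_insert_iff.mp hu with rfl | hu
    · exact h₂ σ fun a ha => hσ a ((le_sup_right : L₂ ≤ L₁ ⊔ L₂) ha)
    · exact h₁ σ (fun a ha => hσ a ((le_sup_left : L₁ ≤ L₁ ⊔ L₂) ha)) u hu

/-- `stabTwo N` is open. -/
theorem stabTwo_open :
    ∃ L₀ : IntermediateField ℚ Qb, FiniteDimensional ℚ L₀ ∧ L₀.fixingSubgroup ≤ stabTwo N := by
  obtain ⟨L, hL, h⟩ := exists_field_fixing_finite N {t : JZero N | (2 : ℕ) • t = 0}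
    (Fermat.Agent.F3TF.torsionFinite N 2 two_pos) (fun t ht => ht)
  refine ⟨L, hL, fun σ hσ t ht => ?_⟩
  exact h σ (fun a ha => (IntermediateField.mem_fixingSubgroup_iff L σ).mp hσ a ha) t ht

variable {N}

omit [NeZero N] in
open Fermat.Agent.S17 in
/-- For `σ` in the stabiliser of `J[2]`, the Kummer function of a half of a rational point is
additive in the second variable. -/
theorem kummerFun_mul_of_mem {y : JZero N} (hy : ∀ σ : GQ, σ • ((2 : ℕ) • y) = (2 : ℕ) • y)
    {σ : GQ} (hσ : σ ∈ stabTwo N) (τ : GQ) :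
    kummerFun y (σ * τ) = kummerFun y τ + kummerFun y σ := by
  rw [kummerFun_mul, hσ _ (nsmul_kummerFun 2 y τ (hy τ))]

omit [NeZero N] in
open Fermat.Agent.S17 in
theorem kummerFun_inv_of_mem {y : JZero N} (hy : ∀ σ : GQ, σ • ((2 : ℕ) • y) = (2 : ℕ) • y)
    {σ : GQ} (hσ : σ ∈ stabTwo N) :
    kummerFun y σ⁻¹ = -kummerFun y σ := by
  have h1 : kummerFun y (σ * σ⁻¹) = kummerFun y σ⁻¹ + kummerFun y σ :=
    kummerFun_mul_of_mem hy hσ σ⁻¹
  have h0 : kummerFun y (σ * σ⁻¹) = 0 := by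
    rw [mul_inv_cancel]
    simp [kummerFun]
  rw [h0] at h1
  exact eq_neg_of_add_eq_zero_left h1.symm

open Fermat.Agent.S17 in
/-- **(HALF)** One number field over which all halves of rational points are defined. -/
theorem exists_half_field (hKL : Fermat.Agent.GaussInt.KeyLemmaAt N) :
    ∃ F : IntermediateField ℚ Qb, FiniteDimensional ℚ F ∧
      ∀ y : JZero N, (∀ σ : GQ, σ • ((2 : ℕ) • y) = (2 : ℕ) • y) →
        ∀ σ ∈ F.fixingSubgroup, σ • y = y := by
  classical
  obtain ⟨F, hF, -, hkey⟩ := Fermat.Agent.KFin.kfin 2 Nat.prime_two (N * 2).primeFactors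
    (stabTwo N) (stabTwo_open N)
  refine ⟨F, hF, fun y hy σ hσ => ?_⟩
  -- the subgroup `N_y`
  set Ny : Subgroup GQ := stabTwo N ⊓ MulAction.stabilizer GQ y with hNy
  have hfix : ∀ τ : GQ, τ ∈ MulAction.stabilizer GQ y ↔ kummerFun y τ = 0 := by
    intro τ
    rw [MulAction.mem_stabilizer_iff, kummerFun, sub_eq_zero]
  have hle : F.fixingSubgroup ≤ Ny := by
    apply hkey Ny inf_le_left
    · -- open
      obtain ⟨L₀, hL₀, hL₀H⟩ := stabTwo_open N
      obtain ⟨L₁, hL₁, hL₁y⟩ := openStab N y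
      refine ⟨L₀ ⊔ L₁, IntermediateField.finiteDimensional_sup L₀ L₁, fun τ hτ => ?_⟩
      have hτ' := (IntermediateField.mem_fixingSubgroup_iff _ τ).mp hτ
      refine ⟨hL₀H ((IntermediateField.mem_fixingSubgroup_iff _ τ).mpr
        fun a ha => hτ' a ((le_sup_left : L₀ ≤ L₀ ⊔ L₁) ha)), ?_⟩
      exact hL₁y τ fun a ha => hτ' a ((le_sup_right : L₁ ≤ L₀ ⊔ L₁) ha)
    · -- commutators
      intro σ₁ hσ₁ τ₁ hτ₁
      have hσi : σ₁⁻¹ ∈ stabTwo N := (stabTwo N).inv_mem hσ₁
      have hτi : τ₁⁻¹ ∈ stabTwo N := (stabTwo N).inv_mem hτ₁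
      refine ⟨(stabTwo N).mul_mem ((stabTwo N).mul_mem ((stabTwo N).mul_mem hσ₁ hτ₁) hσi) hτi,
        (hfix _).mpr ?_⟩
      rw [mul_assoc, mul_assoc, kummerFun_mul_of_mem hy hσ₁,
        kummerFun_mul_of_mem hy hτ₁, kummerFun_mul_of_mem hy hσi,
        kummerFun_inv_of_mem hy hσ₁, kummerFun_inv_of_mem hy hτ₁]
      abel
    · -- squares
      intro σ₁ hσ₁
      refine ⟨(stabTwo N).pow_mem hσ₁ 2, (hfix _).mpr ?_⟩
      rw [pow_two, kummerFun_mul_of_mem hy hσ₁, ← two_nsmul]
      exact nsmul_kummerFun 2 y σ₁ (hy σ₁)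
    · -- inertia outside `2 N`
      intro q hq hqS A hA τ hτ
      have hqN : ¬ q ∣ N * 2 := by
        intro hdvd
        apply hqS
        rw [Nat.mem_primeFactors]
        exact ⟨hq, hdvd, mul_ne_zero (NeZero.ne N) two_ne_zero⟩
      refine ⟨fun t ht => ?_, MulAction.mem_stabilizer_iff.mpr ?_⟩
      · refine inertia_smul_eq_of_nsmul hKL 2 q two_ne_zero hq hqN A hA τ hτ t ?_
        rw [ht]
        exact map_zero (DistribSMul.toAddMonoidHom (JZero N) τ)
      · exact inertia_smul_eq_of_nsmul hKL 2 q two_ne_zero hq hqN A hA τ hτ y (hy τ)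
  exact MulAction.mem_stabilizer_iff.mp (hle hσ).2

end Fermat.Agent.S17W
end
end MergeWrap_S17_W_Half

section MergeWrap_S17_W_Main -- from S17/W/Main.lean

set_option autoImplicit false

noncomputable section

namespace Fermat.Agent.S17W

open ModularCurve AlgebraicCurve Fermat.Agent.S17

local notation "Qb" => AlgebraicClosure ℚ
local notation "GQ" => (AlgebraicClosure ℚ ≃ₐ[ℚ] AlgebraicClosure ℚ)

/-- **Weak Mordell-Weil** for `J₀(N)`: `J₀(N)(ℚ) / 2 J₀(N)(ℚ)` is finite, given divisibility of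
`J₀(N)(ℚ̄)` by `2` and the KEY LEMMA of the good-reduction theory. -/
theorem weakMW_of (N : ℕ) [NeZero N] (hDiv : JZeroTwoDivisible N)
    (hKL : Fermat.Agent.GaussInt.KeyLemmaAt N) : WeakMW N := by
  obtain ⟨F, hF, hhalf⟩ := exists_half_field hKL
  have : F.fixingSubgroup.FiniteIndex := Fermat.Agent.KFin.kf_finiteIndex_fixingSubgroup F
  refine finiteIndex_nsmul_fixedPoints (Γ := GQ) (J := JZero N) 2 hDiv
    (Fermat.Agent.F3TF.torsionFinite N 2 two_pos) F.fixingSubgroup {fun _ => 0}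
    (Set.finite_singleton _) fun y hy => ?_
  rw [Set.mem_singleton_iff]
  funext τ
  rw [kummerFun, sub_eq_zero]
  exact hhalf y hy τ τ.2

end Fermat.Agent.S17W
end
end MergeWrap_S17_W_Main

section MergeWrap_S17_W_Final -- from S17/W/Final.lean

set_option autoImplicit false

noncomputable section

namespace Fermat.Agent.S17W

/-- **Weak Mordell-Weil** for `J₀(N)`: `J₀(N)(ℚ) / 2 J₀(N)(ℚ)` is finite. -/
theorem weakMW (N : ℕ) [NeZero N] : Fermat.Agent.S17.WeakMW N :=
  weakMW_of N (Fermat.Agent.Div.jZeroTwoDivisible N) (Fermat.Agent.GaussInt.keyLemmaAt_all N)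

end Fermat.Agent.S17W
end
end MergeWrap_S17_W_Final
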